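/-
Programme DS (S48), chapter G-RED / PUR twins (helper29).  **The horizontal bridge, LEVEL-FREE.**

Abstract twin of `RED/PUR/HorizUnram20` (§KLevel, §LeOne), `RED/PUR/HorizPlace20` (§Concrete),
`RED/PUR/HorizPoly4` and `RED/PUR/OffHoriz4` (§Generic).  The function field `FF M = ℚbar·F₀(M)` of the
originals is replaced by an ARBITRARY function field `Fb` over an algebraically closed field `Lb`
(with a transcendental generator `x`, `hx : FF.IsGen Lb x`), the Hauptmodul `tF M h` by an arbitrary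
`T : Fb`, and the three level-`M` inputs (`TMem`, `Unbranched`, `CuspExp`) by their ONLY consequence
that the originals use:

  `hsimple : ∀ v c, (∀ γ, cv γ ≠ some c) → 0 < v.ord (T - c) → v.ord (T - c) = 1`

("zeros of `T - c` at non-cusp values `c` are simple"), for a cusp-value function `cv : ι → Option Lb`
on an arbitrary index type.  For a level `L : LevelData` the hypothesis `hsimple` is
`DS/G/PUR/HorizUnram20.ord_sub_eq_one` (from `Unbranched` + `CuspExp` + surjectivity of the cusp places).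

Same theorem names as the originals.  Top statement: `hunrOff_generic`
(`OffIface4.HUNROff O E π t {c | ∃ γ, cv γ = some (algebraMap K Lb c)}`).
-/
import Mathlib
import Fermat.Agent.X0.FFConst
import Fermat.Agent.X0.FFResidue
import Fermat.Agent.RED.PUR.HorizGen20
import Fermat.Agent.RED.PUR.HorizPlace20
import Fermat.Agent.RED.PUR.OffIface4

set_option autoImplicit false
set_option linter.unusedSectionVars false
set_option linter.unusedVariables false
set_option linter.style.haveILetI false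

open Polynomial

noncomputable section

namespace Fermat.Agent.DS.G.PUR.HorizAbs

open Fermat.Agent.X0 Fermat.Agent.X0.FF AlgebraicCurve
open Fermat.Agent.RED.PUR
open Fermat.Agent.RED.PUR.HorizPlace20 (placeOfDVR uniformizer_of_ord_eq_one
  algebraMap_mem_of_inv_mem)

variable {Lb Fb : Type*} [Field Lb] [IsAlgClosed Lb] [Field Fb] [Algebra Lb Fb]
variable {ι : Type*} (cv : ι → Option Lb)

/-- The hypothesis replacing (`TMem`, `Unbranched`, `CuspExp`): zeros of `T - c` at the non-cusp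
values `c` are simple. -/
def SimpleOff (T : Fb) : Prop :=
  ∀ (v : Place Lb Fb) (c : Lb), (∀ γ, cv γ ≠ some c) →
    0 < v.ord (T - algebraMap Lb Fb c) → v.ord (T - algebraMap Lb Fb c) = 1

/-! ### (H2): the statement over a subfield of constants `K ⊂ Lb` -/

section KLevel

variable {K FK : Type*} [Field K] [Field FK] [Algebra K FK] [Algebra K Lb]

/-- residue fields of places of `Fb` are `Lb`. -/
theorem exists_ord_sub_pos_bar {x : Fb} (hx : FF.IsGen Lb x) (v : Place Lb Fb) (f : Fb)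
    (hf : f ∈ v.toValuationSubring) :
    ∃ c : Lb, f = algebraMap Lb Fb c ∨ 0 < v.ord (f - algebraMap Lb Fb c) :=
  FF.exists_ord_sub_pos hx v hf

/-- **(H2)** `ord_w g(t) = 1` at a `K`-place `w` of `FK` lying under a place of `Fb`, for `g`
separable without cusp-value roots. -/
theorem ord_aeval_eq_one {x : Fb} (hx : FF.IsGen Lb x) {T : Fb} (hsimple : SimpleOff cv T)
    (bc : FK →+* Fb)
    (hbc : ∀ a : K, bc (algebraMap K FK a) = algebraMap Lb Fb (algebraMap K Lb a))
    (t : FK) (ht : bc t = T) (w : Place K FK)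
    (hExt : ∃ (v : Place Lb Fb) (d : ℕ), 0 < d ∧ ∀ f : FK, v.ord (bc f) = (d : ℤ) * w.ord f)
    (g : K[X]) (hg : g.Separable)
    (hnc : ∀ c : Lb, (g.map (algebraMap K Lb)).IsRoot c → ∀ γ, cv γ ≠ some c)
    (hpos : 0 < w.ord (aeval t g)) : w.ord (aeval t g) = 1 := by
  obtain ⟨v, d, hd, hve⟩ := hExt
  refine HorizGen20.ord_aeval_eq_one v bc hbc w d hd hve (exists_ord_sub_pos_bar hx v) t g hg ?_ hpos
  intro c hroot hc
  rw [ht] at hc ⊢
  exact hsimple v c (hnc c hroot) hc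

/-- **(H2′)** the twin on the chart at infinity: `s = t⁻¹`, roots `c ≠ 0` of `g` with `c⁻¹` not a
cusp value. -/
theorem ord_aeval_inv_eq_one {x : Fb} (hx : FF.IsGen Lb x) {T : Fb} (hsimple : SimpleOff cv T)
    (bc : FK →+* Fb)
    (hbc : ∀ a : K, bc (algebraMap K FK a) = algebraMap Lb Fb (algebraMap K Lb a))
    (s : FK) (hs : bc s = T⁻¹) (w : Place K FK)
    (hExt : ∃ (v : Place Lb Fb) (d : ℕ), 0 < d ∧ ∀ f : FK, v.ord (bc f) = (d : ℤ) * w.ord f)
    (g : K[X]) (hg : g.Separable)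
    (hnc : ∀ c : Lb, (g.map (algebraMap K Lb)).IsRoot c → c ≠ 0 ∧ ∀ γ, cv γ ≠ some c⁻¹)
    (hpos : 0 < w.ord (aeval s g)) : w.ord (aeval s g) = 1 := by
  obtain ⟨v, d, hd, hve⟩ := hExt
  refine HorizGen20.ord_aeval_eq_one v bc hbc w d hd hve (exists_ord_sub_pos_bar hx v) s g hg ?_ hpos
  intro c hroot hc
  rw [hs] at hc ⊢
  obtain ⟨hc0, hcv⟩ := hnc c hroot
  have heq : v.ord (T⁻¹ - algebraMap Lb Fb c)
      = v.ord (T - algebraMap Lb Fb c⁻¹) := HorizGen20.ord_inv_sub v T c hc0 hc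
  rw [heq] at hc ⊢
  exact hsimple v c⁻¹ hcv hc

end KLevel

/-! ### the `≤ 1` forms over `Lb` (input of `PlaceIntegral3.isRadical_span_singleton`) -/

section LeOne

/-- `ord_v p(T) ≤ 1` at every place, for `p` separable without cusp-value roots. -/
theorem ord_aeval_le_one {x : Fb} (hx : FF.IsGen Lb x) {T : Fb} (hsimple : SimpleOff cv T)
    (p : Lb[X]) (hp : p.Separable) (hnc : ∀ c : Lb, p.IsRoot c → ∀ γ, cv γ ≠ some c)
    (v : Place Lb Fb) : v.ord (aeval T p) ≤ 1 := by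
  by_cases hpos : 0 < v.ord (aeval T p)
  · obtain ⟨c, hroot, hc, heq⟩ :=
      HorizGen20.ord_aeval_eq_ord_sub v (exists_ord_sub_pos_bar hx v) T p hp hpos
    rw [heq, hsimple v c (hnc c hroot) hc]
  · omega

/-- the twin for `T⁻¹`. -/
theorem ord_aeval_inv_le_one {x : Fb} (hx : FF.IsGen Lb x) {T : Fb} (hsimple : SimpleOff cv T)
    (p : Lb[X]) (hp : p.Separable)
    (hnc : ∀ c : Lb, p.IsRoot c → c ≠ 0 ∧ ∀ γ, cv γ ≠ some c⁻¹)
    (v : Place Lb Fb) : v.ord (aeval T⁻¹ p) ≤ 1 := by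
  by_cases hpos : 0 < v.ord (aeval T⁻¹ p)
  · obtain ⟨c, hroot, hc, heq⟩ :=
      HorizGen20.ord_aeval_eq_ord_sub v (exists_ord_sub_pos_bar hx v) T⁻¹ p hp hpos
    obtain ⟨hc0, hcv⟩ := hnc c hroot
    have heq2 : v.ord (T⁻¹ - algebraMap Lb Fb c)
        = v.ord (T - algebraMap Lb Fb c⁻¹) := HorizGen20.ord_inv_sub v T c hc0 hc
    rw [heq2] at hc
    rw [heq, heq2, hsimple v c⁻¹ hcv hc]
  · omega

end LeOne

/-! ### the uniformiser statements (twin of `HorizPlace20` §Concrete) -/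

section Concrete

variable {A K F B : Type*} [CommRing A] [IsDomain A] [Field K] [CharZero K] [Field F] [CommRing B]
  [Algebra A K] [IsFractionRing A K] [Algebra K F] [Algebra A F] [IsScalarTower A K F]
  [Algebra A[X] B] [Algebra B F]
  [Algebra K Lb] [Algebra A Lb] [IsScalarTower A K Lb] [Algebra.IsAlgebraic K Lb]

/-- **Generic core of (H3).**  `T' ∈ Fb` non-constant with simple zeros of `T' - c` at the `good`
values `c`; `s ∈ F` with `bc s = T'`; `B` an `A[X]`-algebra in `F` with `X ↦ s`.  A discrete valuation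
subring `O ⊇ B` in which `π` is a unit and whose centre value is `good` has a uniformiser `g0(s)`,
`g0 ∈ A[X]`. -/
theorem exists_uniformizer_gen {x : Fb} (hx : FF.IsGen Lb x) (T' : Fb)
    (hconst : ∀ c : Lb, T' ≠ algebraMap Lb Fb c) (good : Lb → Prop)
    (hsimple : ∀ (v : Place Lb Fb) (c : Lb), good c →
      0 < v.ord (T' - algebraMap Lb Fb c) → v.ord (T' - algebraMap Lb Fb c) = 1)
    (bc : F →+* Fb)
    (hbc : ∀ a : K, bc (algebraMap K F a) = algebraMap Lb Fb (algebraMap K Lb a))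
    (s : F) (hs : bc s = T')
    (hExt : ∀ w : Place K F, ∃ (v : Place Lb Fb) (d : ℕ), 0 < d ∧
      ∀ f : F, v.ord (bc f) = (d : ℤ) * w.ord f)
    (hX : ∀ p : A[X], algebraMap B F (algebraMap A[X] B p) = aeval s p)
    (π : A) (hπ0 : algebraMap A F π ≠ 0)
    (hK : ∀ a : K, ∃ (r : A) (k : ℕ), algebraMap K F a * algebraMap A F π ^ k = algebraMap A F r)
    (O : ValuationSubring F) (hB : ∀ z : B, algebraMap B F z ∈ O) [IsDiscreteValuationRing O]
    (hπ : (algebraMap B F (algebraMap A[X] B (C π)))⁻¹ ∈ O)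
    (hgood : ∀ (w : Place K F), w.toValuationSubring = O → ∀ (v : Place Lb Fb) (d : ℕ),
      0 < d → (∀ f : F, v.ord (bc f) = (d : ℤ) * w.ord f) → ∀ c : Lb,
      0 < v.ord (T' - algebraMap Lb Fb c) → good c) :
    ∃ g0 : A[X], (algebraMap B F (algebraMap A[X] B g0))⁻¹ ∉ O ∧
      ∀ y ∈ O, y⁻¹ ∉ O → y / algebraMap B F (algebraMap A[X] B g0) ∈ O := by
  -- `A ⊆ O`, `K ⊆ O`
  have hA : ∀ r : A, algebraMap A F r ∈ O := by
    intro r
    have := hB (algebraMap A[X] B (C r))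
    rwa [hX, aeval_C] at this
  have hπ' : (algebraMap A F π)⁻¹ ∈ O := by rwa [hX, aeval_C] at hπ
  have hKO : ∀ a : K, algebraMap K F a ∈ O := algebraMap_mem_of_inv_mem O π hK hA hπ0 hπ'
  set w : Place K F := placeOfDVR O hKO with hw
  obtain ⟨v, d, hd, hve⟩ := hExt w
  have hdpos : (0 : ℤ) < d := by exact_mod_cast hd
  -- `s ∈ O`
  have hsO : s ∈ O := by
    have := hB (algebraMap A[X] B X)
    rwa [hX, aeval_X] at this
  have hTv : T' ∈ v.toValuationSubring := by
    apply ffp_mem_of_ord_nonneg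
    rw [← hs, hve]
    have : 0 ≤ w.ord s := ffp_ord_nonneg_of_mem w hsO
    positivity
  -- the centre value `c`
  obtain ⟨c, hc | hc⟩ := exists_ord_sub_pos_bar hx v T' hTv
  · exact absurd hc (hconst c)
  have hgoodc : good c := hgood w rfl v d hd hve c hc
  -- the minimal polynomial of `c` over `K`
  have hcint : IsIntegral K c := (Algebra.IsAlgebraic.isAlgebraic c).isIntegral
  set g : K[X] := minpoly K c with hg
  have hgirr : Irreducible g := minpoly.irreducible hcint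
  have hgsep : g.Separable := hgirr.separable
  have hgroot : (g.map (algebraMap K Lb)).IsRoot c := by
    rw [IsRoot, eval_map, ← aeval_def]
    exact minpoly.aeval K c
  -- `0 < ord_w g(s)`
  have hbcg : bc (aeval s g) = aeval T' (g.map (algebraMap K Lb)) := by
    rw [HorizGen20.bc_aeval bc hbc, hs]
  have hgbar0 : g.map (algebraMap K Lb) ≠ 0 :=
    (Polynomial.map_ne_zero_iff (algebraMap K Lb).injective).mpr hgirr.ne_zero
  have hTtr : aeval T' (g.map (algebraMap K Lb)) ≠ 0 := by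
    intro h0
    have halg : IsAlgebraic Lb T' := ⟨_, hgbar0, h0⟩
    obtain ⟨c', hc'⟩ := FF.eq_algebraMap_of_isAlgebraic halg
    exact hconst c' hc'
  have hposv : 0 < v.ord (aeval T' (g.map (algebraMap K Lb))) := by
    have hexp := HorizGen20.aeval_eq_add_mul (g.map (algebraMap K Lb)) c T'
    rw [hgroot, map_zero, zero_add] at hexp
    set Q := aeval T' ((g.map (algebraMap K Lb)) /ₘ (X - C c)) with hQ
    have hQ0 : Q ≠ 0 := by
      intro hq; rw [hq, mul_zero] at hexp; exact hTtr hexp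
    have hTc0 : T' - algebraMap Lb Fb c ≠ 0 := by
      intro hq; rw [hq, zero_mul] at hexp; exact hTtr hexp
    have hQmem : Q ∈ v.toValuationSubring := HorizGen20.aeval_mem v hTv _
    have hQord : 0 ≤ v.ord Q := ffp_ord_nonneg_of_mem v hQmem
    rw [hexp, v.ord_mul hTc0 hQ0]
    omega
  have hposw : 0 < w.ord (aeval s g) := by
    have := hve (aeval s g)
    rw [hbcg] at this
    rw [this] at hposv
    by_contra hle
    have : w.ord (aeval s g) ≤ 0 := not_lt.mp hle
    nlinarith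
  -- `ord_w g(s) = 1`
  have hone : w.ord (aeval s g) = 1 := by
    refine HorizGen20.ord_aeval_eq_one v bc hbc w d hd hve (exists_ord_sub_pos_bar hx v)
      s g hgsep ?_ hposw
    intro c' _ hc'
    rw [hs] at hc' ⊢
    -- `c' = c`
    have hcc : c' = c := by
      by_contra hne
      have hconst' : algebraMap Lb Fb (c - c') ≠ 0 := by
        rw [Ne, map_eq_zero]; exact sub_ne_zero.mpr (Ne.symm hne)
      have h0 : v.ord (algebraMap Lb Fb (c - c')) = 0 := ffp_ord_algebraMap v _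
      have hlt : v.ord (algebraMap Lb Fb (c - c'))
          < v.ord (T' - algebraMap Lb Fb c) := by rw [h0]; exact hc
      have := ffp_ord_add_eq_of_lt v hconst' hlt
      have heq : algebraMap Lb Fb (c - c') + (T' - algebraMap Lb Fb c)
          = T' - algebraMap Lb Fb c' := by rw [map_sub]; ring
      rw [heq, h0] at this
      omega
    rw [hcc]
    exact hsimple v c hgoodc hc
  -- scale `g` into `A[X]`
  obtain ⟨b, hbM, hb⟩ := IsLocalization.integerNormalization_spec (nonZeroDivisors A) g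
  set g0 : A[X] := IsLocalization.integerNormalization (nonZeroDivisors A) g with hg0
  have hb0 : b ≠ 0 := nonZeroDivisors.ne_zero hbM
  have hbK : algebraMap A K b ≠ 0 := by
    rw [Ne, map_eq_zero_iff _ (IsFractionRing.injective A K)]; exact hb0
  have hG : aeval s g0 = algebraMap K F (algebraMap A K b) * aeval s g := by
    rw [← aeval_map_algebraMap K s g0, hb, ← algebraMap_smul K b g, map_smul, Algebra.smul_def]
  have hgt0 : aeval s g ≠ 0 := by
    intro h0; rw [h0, Place.ord_zero] at hone; exact zero_ne_one hone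
  have hordG : w.ord (aeval s g0) = 1 := by
    rw [hG, w.ord_mul ((_root_.map_ne_zero _).mpr hbK) hgt0, ffp_ord_algebraMap, hone, zero_add]
  refine ⟨g0, ?_⟩
  rw [hX]
  exact uniformizer_of_ord_eq_one w _ hordG

/-- `bc` on the constants coming from `A`. -/
theorem bc_algebraMap_A (bc : F →+* Fb)
    (hbc : ∀ a : K, bc (algebraMap K F a) = algebraMap Lb Fb (algebraMap K Lb a)) (a : A) :
    bc (algebraMap A F a) = algebraMap Lb Fb (algebraMap A Lb a) := by
  rw [IsScalarTower.algebraMap_apply A K F, hbc, ← IsScalarTower.algebraMap_apply A K Lb]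

/-- **Core of (H3), chart `t`.**  A discrete valuation subring `O ⊇ B` of `F` in which `π` and all
`t - c_i` (`c_i` the finite cusp values) are units has a uniformiser of the form `g0(t)`, `g0 ∈ A[X]`. -/
theorem exists_uniformizer {x : Fb} (hx : FF.IsGen Lb x) {T : Fb} (hsimple : SimpleOff cv T)
    (hconst : ∀ c : Lb, T ≠ algebraMap Lb Fb c)
    (hcvA : ∀ γ c, cv γ = some c → ∃ a : A, algebraMap A Lb a = c)
    (bc : F →+* Fb)
    (hbc : ∀ a : K, bc (algebraMap K F a) = algebraMap Lb Fb (algebraMap K Lb a))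
    (t : F) (ht : bc t = T)
    (hExt : ∀ w : Place K F, ∃ (v : Place Lb Fb) (d : ℕ), 0 < d ∧
      ∀ f : F, v.ord (bc f) = (d : ℤ) * w.ord f)
    (hX : ∀ p : A[X], algebraMap B F (algebraMap A[X] B p) = aeval t p)
    (π : A) (hπ0 : algebraMap A F π ≠ 0)
    (hK : ∀ a : K, ∃ (r : A) (k : ℕ), algebraMap K F a * algebraMap A F π ^ k = algebraMap A F r)
    (O : ValuationSubring F) (hB : ∀ z : B, algebraMap B F z ∈ O) [IsDiscreteValuationRing O]
    (hπ : (algebraMap B F (algebraMap A[X] B (C π)))⁻¹ ∈ O)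
    (hcusp : ∀ a : A, (∃ γ, cv γ = some (algebraMap A Lb a)) →
      (algebraMap B F (algebraMap A[X] B (X - C a)))⁻¹ ∈ O) :
    ∃ g0 : A[X], (algebraMap B F (algebraMap A[X] B g0))⁻¹ ∉ O ∧
      ∀ y ∈ O, y⁻¹ ∉ O → y / algebraMap B F (algebraMap A[X] B g0) ∈ O := by
  refine exists_uniformizer_gen hx T hconst (fun c => ∀ γ, cv γ ≠ some c)
    (fun v c hgc hc => hsimple v c hgc hc)
    bc hbc t ht hExt hX π hπ0 hK O hB hπ ?_
  intro w hwO v d hd hve c hc γ hγ
  obtain ⟨a, ha⟩ := hcvA γ c hγ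
  have h1 := hcusp a ⟨γ, by rw [ha]; exact hγ⟩
  rw [hX, map_sub, aeval_X, aeval_C, ← hwO] at h1
  have h2 : 0 ≤ w.ord (t - algebraMap A F a)⁻¹ := ffp_ord_nonneg_of_mem w h1
  rw [w.ord_inv] at h2
  have h3 := hve (t - algebraMap A F a)
  rw [map_sub, ht, bc_algebraMap_A bc hbc, ha] at h3
  rw [h3] at hc
  have hdpos : (0 : ℤ) < d := by exact_mod_cast hd
  nlinarith

/-- **Core of (H3), chart `t⁻¹`.**  `X ↦ s`, `bc s = T⁻¹`: a discrete valuation subring `O ⊇ B` in
which `π`, `s` and all `c_i s - 1` are units has a uniformiser of the form `g0(s)`, `g0 ∈ A[X]`. -/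
theorem exists_uniformizer_inv {x : Fb} (hx : FF.IsGen Lb x) {T : Fb} (hsimple : SimpleOff cv T)
    (hconst : ∀ c : Lb, T ≠ algebraMap Lb Fb c)
    (hcvA : ∀ γ c, cv γ = some c → ∃ a : A, algebraMap A Lb a = c)
    (bc : F →+* Fb)
    (hbc : ∀ a : K, bc (algebraMap K F a) = algebraMap Lb Fb (algebraMap K Lb a))
    (s : F) (hs : bc s = T⁻¹)
    (hExt : ∀ w : Place K F, ∃ (v : Place Lb Fb) (d : ℕ), 0 < d ∧
      ∀ f : F, v.ord (bc f) = (d : ℤ) * w.ord f)
    (hX : ∀ p : A[X], algebraMap B F (algebraMap A[X] B p) = aeval s p)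
    (π : A) (hπ0 : algebraMap A F π ≠ 0)
    (hK : ∀ a : K, ∃ (r : A) (k : ℕ), algebraMap K F a * algebraMap A F π ^ k = algebraMap A F r)
    (O : ValuationSubring F) (hB : ∀ z : B, algebraMap B F z ∈ O) [IsDiscreteValuationRing O]
    (hπ : (algebraMap B F (algebraMap A[X] B (C π)))⁻¹ ∈ O)
    (hsunit : (algebraMap B F (algebraMap A[X] B X))⁻¹ ∈ O)
    (hcusp : ∀ a : A, (∃ γ, cv γ = some (algebraMap A Lb a)) →
      (algebraMap B F (algebraMap A[X] B (C a * X - 1)))⁻¹ ∈ O) :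
    ∃ g0 : A[X], (algebraMap B F (algebraMap A[X] B g0))⁻¹ ∉ O ∧
      ∀ y ∈ O, y⁻¹ ∉ O → y / algebraMap B F (algebraMap A[X] B g0) ∈ O := by
  have hT0 : T ≠ 0 := by
    intro h0
    exact hconst 0 (by rw [h0, map_zero])
  have hconst' : ∀ c : Lb, T⁻¹ ≠ algebraMap Lb Fb c := by
    intro c hc
    apply hconst c⁻¹
    rw [map_inv₀, ← hc, inv_inv]
  refine exists_uniformizer_gen hx T⁻¹ hconst'
    (fun c => c ≠ 0 ∧ ∀ γ, cv γ ≠ some c⁻¹) ?_ bc hbc s hs hExt hX π hπ0 hK O hB hπ ?_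
  · rintro v c ⟨hc0, hcv⟩ hc
    have heq : v.ord (T⁻¹ - algebraMap Lb Fb c)
        = v.ord (T - algebraMap Lb Fb c⁻¹) := HorizGen20.ord_inv_sub v T c hc0 hc
    rw [heq] at hc ⊢
    exact hsimple v c⁻¹ hcv hc
  · intro w hwO v d hd hve c hc
    have hdpos : (0 : ℤ) < d := by exact_mod_cast hd
    -- `s` is a unit of `O`, so `ord_v T⁻¹ = 0`
    have hsO : s ∈ w.toValuationSubring := by
      have := hB (algebraMap A[X] B X)
      rwa [hX, aeval_X, ← hwO] at this
    have hsinv : s⁻¹ ∈ w.toValuationSubring := by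
      rwa [hX, aeval_X, ← hwO] at hsunit
    have hws : w.ord s = 0 := by
      have h1 := ffp_ord_nonneg_of_mem w hsO
      have h2 := ffp_ord_nonneg_of_mem w hsinv
      rw [w.ord_inv] at h2
      omega
    have hvT : v.ord T⁻¹ = 0 := by rw [← hs, hve, hws, mul_zero]
    have hc0 : c ≠ 0 := by
      intro h0
      rw [h0, map_zero, sub_zero, hvT] at hc
      exact lt_irrefl _ hc
    refine ⟨hc0, fun γ hγ => ?_⟩
    obtain ⟨a, ha⟩ := hcvA γ c⁻¹ hγ
    have h1 := hcusp a ⟨γ, by rw [ha]; exact hγ⟩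
    rw [hX, map_sub, map_mul, aeval_X, aeval_C, map_one, ← hwO] at h1
    have h2 : 0 ≤ w.ord (algebraMap A F a * s - 1)⁻¹ := ffp_ord_nonneg_of_mem w h1
    rw [w.ord_inv] at h2
    have h3 := hve (algebraMap A F a * s - 1)
    rw [map_sub, map_mul, map_one, hs, bc_algebraMap_A bc hbc, ha] at h3
    -- `c⁻¹ T⁻¹ - 1 = c⁻¹ (T⁻¹ - c)`
    have hfac : algebraMap Lb Fb c⁻¹ * T⁻¹ - 1
        = algebraMap Lb Fb c⁻¹ * (T⁻¹ - algebraMap Lb Fb c) := by
      rw [mul_sub, ← map_mul, inv_mul_cancel₀ hc0, map_one]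
    have hcinv : algebraMap Lb Fb c⁻¹ ≠ 0 := by
      rw [Ne, map_eq_zero]; exact inv_ne_zero hc0
    have hne : T⁻¹ - algebraMap Lb Fb c ≠ 0 := by
      intro h0; rw [h0, Place.ord_zero] at hc; exact lt_irrefl _ hc
    rw [hfac, v.ord_mul hcinv hne, ffp_ord_algebraMap, zero_add] at h3
    rw [h3] at hc
    nlinarith

/-! ### the literal `hUNR` shapes of `PurityMain26` (`R0 := A[X]`, `π := C π₀`) -/

/-- **`hUNR` of `PurityMain26.smooth_of_purity`** at a maximal ideal `x` of `B` containing no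
`t - c_i` (`c_i` the finite cusp values): a NON-cusp closed point of the chart `t`. -/
theorem hUNR_noncusp {x : Fb} (hx : FF.IsGen Lb x) {T : Fb} (hsimple : SimpleOff cv T)
    (hconst : ∀ c : Lb, T ≠ algebraMap Lb Fb c)
    (hcvA : ∀ γ c, cv γ = some c → ∃ a : A, algebraMap A Lb a = c)
    (bc : F →+* Fb)
    (hbc : ∀ a : K, bc (algebraMap K F a) = algebraMap Lb Fb (algebraMap K Lb a))
    (t : F) (ht : bc t = T)
    (hExt : ∀ w : Place K F, ∃ (v : Place Lb Fb) (d : ℕ), 0 < d ∧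
      ∀ f : F, v.ord (bc f) = (d : ℤ) * w.ord f)
    (hX : ∀ p : A[X], algebraMap B F (algebraMap A[X] B p) = aeval t p)
    (π : A) (hπ0 : algebraMap A F π ≠ 0)
    (hK : ∀ a : K, ∃ (r : A) (k : ℕ), algebraMap K F a * algebraMap A F π ^ k = algebraMap A F r)
    (xB : Ideal B)
    (hxB : ∀ a : A, (∃ γ, cv γ = some (algebraMap A Lb a)) → algebraMap A[X] B (X - C a) ∉ xB) :
    ∀ O : ValuationSubring F, (∀ z : B, algebraMap B F z ∈ O) → IsDiscreteValuationRing O →
      (algebraMap B F (algebraMap A[X] B (C π)))⁻¹ ∈ O →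
      (∀ r : A[X], algebraMap A[X] B r ∉ xB → (algebraMap B F (algebraMap A[X] B r))⁻¹ ∈ O) →
      ∃ g0 : A[X], (algebraMap B F (algebraMap A[X] B g0))⁻¹ ∉ O ∧
        ∀ y ∈ O, y⁻¹ ∉ O → y / algebraMap B F (algebraMap A[X] B g0) ∈ O := by
  intro O hB hdvr hπ hcen
  have := hdvr
  exact exists_uniformizer cv hx hsimple hconst hcvA bc hbc t ht hExt hX π hπ0 hK O hB hπ
    (fun a ha => hcen _ (hxB a ha))

/-- **`hUNR` of `PurityMain26.not_dvd_discr_of_valuative`** at the cusp point `P ∋ X - C a₀` of the chart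
`t`, excluded element `q := X - C a₀`: the other cusp values are separated from `a₀` at `P`. -/
theorem hUNR_cusp {x : Fb} (hx : FF.IsGen Lb x) {T : Fb} (hsimple : SimpleOff cv T)
    (hconst : ∀ c : Lb, T ≠ algebraMap Lb Fb c)
    (hcvA : ∀ γ c, cv γ = some c → ∃ a : A, algebraMap A Lb a = c)
    (bc : F →+* Fb)
    (hbc : ∀ a : K, bc (algebraMap K F a) = algebraMap Lb Fb (algebraMap K Lb a))
    (t : F) (ht : bc t = T)
    (hExt : ∀ w : Place K F, ∃ (v : Place Lb Fb) (d : ℕ), 0 < d ∧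
      ∀ f : F, v.ord (bc f) = (d : ℤ) * w.ord f)
    (hX : ∀ p : A[X], algebraMap B F (algebraMap A[X] B p) = aeval t p)
    (π : A) (hπ0 : algebraMap A F π ≠ 0)
    (hK : ∀ a : K, ∃ (r : A) (k : ℕ), algebraMap K F a * algebraMap A F π ^ k = algebraMap A F r)
    (P : Ideal A[X]) (a₀ : A)
    (hP : ∀ a : A, (∃ γ, cv γ = some (algebraMap A Lb a)) → a = a₀ ∨ X - C a ∉ P) :
    ∀ O : ValuationSubring F, (∀ z : B, algebraMap B F z ∈ O) → IsDiscreteValuationRing O →
      (algebraMap B F (algebraMap A[X] B (C π)))⁻¹ ∈ O →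
      (algebraMap B F (algebraMap A[X] B (X - C a₀)))⁻¹ ∈ O →
      (∀ r : A[X], r ∉ P → (algebraMap B F (algebraMap A[X] B r))⁻¹ ∈ O) →
      ∃ g0 : A[X], (algebraMap B F (algebraMap A[X] B g0))⁻¹ ∉ O ∧
        ∀ y ∈ O, y⁻¹ ∉ O → y / algebraMap B F (algebraMap A[X] B g0) ∈ O := by
  intro O hB hdvr hπ hq hcen
  have := hdvr
  refine exists_uniformizer cv hx hsimple hconst hcvA bc hbc t ht hExt hX π hπ0 hK O hB hπ ?_
  intro a ha
  rcases hP a ha with rfl | hne
  · exact hq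
  · exact hcen _ hne

/-- **`hUNR` of `PurityMain26.not_dvd_discr_of_valuative`** at the cusp point `t = ∞` of the chart
`s = t⁻¹` (`X ↦ s`), excluded element `q := X`. -/
theorem hUNR_cusp_inv {x : Fb} (hx : FF.IsGen Lb x) {T : Fb} (hsimple : SimpleOff cv T)
    (hconst : ∀ c : Lb, T ≠ algebraMap Lb Fb c)
    (hcvA : ∀ γ c, cv γ = some c → ∃ a : A, algebraMap A Lb a = c)
    (bc : F →+* Fb)
    (hbc : ∀ a : K, bc (algebraMap K F a) = algebraMap Lb Fb (algebraMap K Lb a))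
    (s : F) (hs : bc s = T⁻¹)
    (hExt : ∀ w : Place K F, ∃ (v : Place Lb Fb) (d : ℕ), 0 < d ∧
      ∀ f : F, v.ord (bc f) = (d : ℤ) * w.ord f)
    (hX : ∀ p : A[X], algebraMap B F (algebraMap A[X] B p) = aeval s p)
    (π : A) (hπ0 : algebraMap A F π ≠ 0)
    (hK : ∀ a : K, ∃ (r : A) (k : ℕ), algebraMap K F a * algebraMap A F π ^ k = algebraMap A F r)
    (P : Ideal A[X])
    (hP : ∀ a : A, (∃ γ, cv γ = some (algebraMap A Lb a)) → C a * X - 1 ∉ P) :
    ∀ O : ValuationSubring F, (∀ z : B, algebraMap B F z ∈ O) → IsDiscreteValuationRing O →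
      (algebraMap B F (algebraMap A[X] B (C π)))⁻¹ ∈ O →
      (algebraMap B F (algebraMap A[X] B X))⁻¹ ∈ O →
      (∀ r : A[X], r ∉ P → (algebraMap B F (algebraMap A[X] B r))⁻¹ ∈ O) →
      ∃ g0 : A[X], (algebraMap B F (algebraMap A[X] B g0))⁻¹ ∉ O ∧
        ∀ y ∈ O, y⁻¹ ∉ O → y / algebraMap B F (algebraMap A[X] B g0) ∈ O := by
  intro O hB hdvr hπ hq hcen
  have := hdvr
  exact exists_uniformizer_inv cv hx hsimple hconst hcvA bc hbc s hs hExt hX π hπ0 hK O hB hπ hq
    (fun a ha => hcen _ (hP a ha))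

end Concrete

/-! ### polynomial form (twin of `HorizPoly4`) -/

section Poly

variable {A K F : Type*} [CommRing A] [IsDomain A] [Field K] [CharZero K] [Field F]
  [Algebra A K] [IsFractionRing A K] [Algebra K F] [Algebra A F] [IsScalarTower A K F]
  [Algebra K Lb] [Algebra A Lb] [IsScalarTower A K Lb] [Algebra.IsAlgebraic K Lb]

/-- **`hUNR` at a non-cusp point, polynomial form.**  `P` an ideal of `A[X]` containing no `X - C a`
(`a` a finite cusp value): every discrete valuation subring `O` of `F` containing `A[t]`, in which `π`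
is a unit and all `r(t)`, `r ∉ P`, are units, has a uniformiser `g0(t)`, `g0 ∈ A[X]`. -/
theorem hUNR_noncusp_poly {x : Fb} (hx : FF.IsGen Lb x) {T : Fb} (hsimple : SimpleOff cv T)
    (hconst : ∀ c : Lb, T ≠ algebraMap Lb Fb c)
    (hcvA : ∀ γ c, cv γ = some c → ∃ a : A, algebraMap A Lb a = c)
    (bc : F →+* Fb)
    (hbc : ∀ a : K, bc (algebraMap K F a) = algebraMap Lb Fb (algebraMap K Lb a))
    (t : F) (ht : bc t = T)
    (hExt : ∀ w : Place K F, ∃ (v : Place Lb Fb) (d : ℕ), 0 < d ∧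
      ∀ f : F, v.ord (bc f) = (d : ℤ) * w.ord f)
    (π : A) (hπ0 : algebraMap A F π ≠ 0)
    (hK : ∀ a : K, ∃ (r : A) (k : ℕ), algebraMap K F a * algebraMap A F π ^ k = algebraMap A F r)
    (P : Ideal A[X])
    (hP : ∀ a : A, (∃ γ, cv γ = some (algebraMap A Lb a)) → (X - C a : A[X]) ∉ P) :
    ∀ O : ValuationSubring F, (∀ z : A[X], aeval t z ∈ O) → IsDiscreteValuationRing O →
      (algebraMap A F π)⁻¹ ∈ O →
      (∀ r : A[X], r ∉ P → (aeval t r)⁻¹ ∈ O) →
      ∃ g0 : A[X], (aeval t g0)⁻¹ ∉ O ∧ ∀ y ∈ O, y⁻¹ ∉ O → y / aeval t g0 ∈ O := by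
  intro O hB hdvr hπ hcen
  letI : Algebra A[X] F := (aeval t : A[X] →ₐ[A] F).toRingHom.toAlgebra
  have hX : ∀ p : A[X], algebraMap A[X] F (algebraMap A[X] A[X] p) = aeval t p := fun p => rfl
  have key := hUNR_noncusp (B := A[X]) cv hx hsimple hconst hcvA bc hbc t ht hExt
    hX π hπ0 hK P (fun a ha => hP a ha) O (fun z => hB z) hdvr
    (by
      show (aeval t (C π))⁻¹ ∈ O
      rw [aeval_C]; exact hπ)
    (fun r hr => hcen r hr)
  exact key

end Poly

/-! ### the `HUNROff` wrapper (twin of `OffHoriz4` §Generic) -/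

section Off

open HahnSeries ModularCurve IntermediateField
open Fermat.Agent.RED.PUR.OffIface4

/-- **The horizontal bridge away from the cusp values, generic `(O, E)`, level-free.** -/
theorem hunrOff_generic {x : Fb} (hx : FF.IsGen Lb x) {T : Fb} (hsimple : SimpleOff cv T)
    (hconst : ∀ c : Lb, T ≠ algebraMap Lb Fb c)
    {K : Type*} [Field K] [CharZero K] [Algebra K Lb] [Algebra.IsAlgebraic K Lb]
    (O : ValuationSubring K) [IsDiscreteValuationRing ↥O]
    (E : IntermediateField K (LaurentSeries K))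
    (hcvA : ∀ γ c, cv γ = some c → ∃ a : ↥O, algebraMap K Lb (a : K) = c)
    (bc : ↥E →+* Fb)
    (hbc : ∀ a : K, bc (algebraMap K ↥E a) = algebraMap Lb Fb (algebraMap K Lb a))
    (t : ↥E) (ht : bc t = T)
    (hExt : ∀ w : Place K ↥E, ∃ (v : Place Lb Fb) (d : ℕ), 0 < d ∧
      ∀ f : ↥E, v.ord (bc f) = (d : ℤ) * w.ord f)
    {π : ↥O} (hπ : Irreducible π) :
    HUNROff O E π t {c | ∃ γ, cv γ = some (algebraMap K Lb (c : K))} := by
  intro P hP O' hint hdvr hπO hcen
  letI : Algebra ↥O Lb := ((algebraMap K Lb).comp O.subtype).toAlgebra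
  haveI : IsScalarTower ↥O K Lb := IsScalarTower.of_algebraMap_eq fun _ => rfl
  haveI : IsScalarTower ↥O K ↥E := Fermat.Agent.RED.NumInst4.isScalarTower_OE O E
  have hinjE : Function.Injective (algebraMap ↥O ↥E) := by
    rw [IsScalarTower.algebraMap_eq ↥O K ↥E]
    exact (algebraMap K ↥E).injective.comp Subtype.val_injective
  refine hUNR_noncusp_poly cv hx hsimple hconst (A := ↥O) (K := K) (F := ↥E)
    (fun γ c hγ => ?_) bc hbc t ht hExt π ?_ (fun a => ?_) P (fun a ha => ?_) O' (fun z => ?_)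
    hdvr hπO hcen
  · obtain ⟨a, ha⟩ := hcvA γ c hγ
    exact ⟨a, ha⟩
  · exact fun h0 => hπ.ne_zero (hinjE (by rw [h0, map_zero]))
  · -- denominators are powers of `π`
    by_cases ha : a ∈ O
    · refine ⟨⟨a, ha⟩, 0, ?_⟩
      rw [pow_zero, mul_one, IsScalarTower.algebraMap_apply ↥O K ↥E]
      rfl
    · have hainv : a⁻¹ ∈ O := (O.mem_or_inv_mem a).resolve_left ha
      have ha0 : a ≠ 0 := fun h0 => ha (by rw [h0]; exact O.zero_mem)
      have hne : (⟨a⁻¹, hainv⟩ : ↥O) ≠ 0 := fun h0 =>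
        inv_ne_zero ha0 (congrArg Subtype.val h0)
      obtain ⟨k, u, hu⟩ := IsDiscreteValuationRing.eq_unit_mul_pow_irreducible hne hπ
      refine ⟨((u⁻¹ : (↥O)ˣ) : ↥O), k, ?_⟩
      have h1 : a⁻¹ = ((u : ↥O) : K) * ((π : ↥O) : K) ^ k := by
        have := congrArg Subtype.val hu
        simpa using this
      have hu0 : ((u : ↥O) : K) ≠ 0 := fun h0 => u.ne_zero (Subtype.ext h0)
      have h2 : a * ((π : ↥O) : K) ^ k = (((u⁻¹ : (↥O)ˣ) : ↥O) : K) := by
        have h3 : ((u : ↥O) : K) * (((u⁻¹ : (↥O)ˣ) : ↥O) : K) = 1 := by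
          rw [← MulMemClass.coe_mul, Units.mul_inv, OneMemClass.coe_one]
        have h4 : a * (((u : ↥O) : K) * ((π : ↥O) : K) ^ k) = 1 := by
          rw [← h1, mul_inv_cancel₀ ha0]
        have h5 : a * ((π : ↥O) : K) ^ k * ((u : ↥O) : K) = 1 := by
          rw [← h4]; ring
        calc a * ((π : ↥O) : K) ^ k
            = a * ((π : ↥O) : K) ^ k * (((u : ↥O) : K) * (((u⁻¹ : (↥O)ˣ) : ↥O) : K)) := by
              rw [h3, mul_one]
          _ = (a * ((π : ↥O) : K) ^ k * ((u : ↥O) : K)) * (((u⁻¹ : (↥O)ˣ) : ↥O) : K) := by ring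
          _ = (((u⁻¹ : (↥O)ˣ) : ↥O) : K) := by rw [h5, one_mul]
      rw [IsScalarTower.algebraMap_apply ↥O K ↥E, IsScalarTower.algebraMap_apply ↥O K ↥E,
        ← map_pow, ← map_mul]
      exact congrArg (algebraMap K ↥E) h2
  · obtain ⟨γ, hγ⟩ := ha
    exact hP a ⟨γ, hγ⟩
  · apply hint
    have hmem : aeval t z ∈ Algebra.adjoin ↥O {t} := by
      rw [Algebra.adjoin_singleton_eq_range_aeval]
      exact ⟨z, rfl⟩
    exact isIntegral_algebraMap (R := ↥(Algebra.adjoin ↥O {t})) (A := ↥E) (x := ⟨_, hmem⟩)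

end Off

end Fermat.Agent.DS.G.PUR.HorizAbs
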