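/-
Programme DS (S48), chapter G-RED / PUR twins (helper29).  Generic twin of `RED/PUR/HorizUnram20`
§Main at an abstract level `L : LevelData` with realisation data `D` and cusp data `C`
(`DS/G/Level.lean`), against helper77's interface `DS/G/RED/BASE/Interface12` (`TMem`, `tF`,
`Unbranched`, `CuspExp`).

Inputs not yet available generically (G-X0 Degree / CuspSurj twins) are the two fields of
`PlaceInputs C`:
* `isGen`    : `FF.IsGen Kbar (jFL L)`                       (twin of `X0/Degree.isGen_jF`);
* `cuspSurj` : every place over `j = ∞` is a cusp place      (twin of `X0/CuspSurj.exists_cuspPlace_eq`).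

Output: `ord_sub_eq_one` (**(H1)**: zeros of `t - c` at non-cusp values are simple), i.e.
`simpleOff : HorizAbs.SimpleOff cv (tF L h)`, the single input of the level-free file
`DS/G/PUR/HorizAbs`.
-/
import Mathlib
import Fermat.Agent.DS.G.RED.BASE.Interface12
import Fermat.Agent.DS.G.X0.CuspGood
import Fermat.Agent.DS.G.X0.FracR
import Fermat.Agent.RED.PUR.HorizUnram20
import Fermat.Agent.DS.G.PUR.HorizAbs

set_option autoImplicit false
set_option linter.unusedSectionVars false

open UpperHalfPlane hiding I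
open scoped MatrixGroups IntermediateField

noncomputable section

namespace Fermat.Agent.DS.G.PUR.HorizUnram20

open Fermat.Agent.X0 Fermat.Agent.X0.FF AlgebraicCurve
open Fermat.Agent.DS.G.Level Fermat.Agent.DS.G.X0.CuspPlaces
open Fermat.Agent.DS.G.RED.BASE.Interface12
open Fermat.Agent.RED.BASE.Interface12 (CuspShape)
open Fermat.Agent.RED.PUR.HorizUnram20 (order_sub_nonpos_of_some order_sub_neg_of_none)

variable {L : LevelData} {D : RealizeDataK L} (C : CuspDataK L D)

/-- The two facts on the places of `FFL L` consumed by the horizontal bridge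
(to be supplied by the G-X0 twins of `X0/Degree` and `X0/CuspSurj`). -/
structure PlaceInputs : Prop where
  /-- `j` is a transcendental generator of `FFL L / ℚbar` -/
  isGen : FF.IsGen Kbar (jFL L)
  /-- every place over `j = ∞` is a cusp place -/
  cuspSurj : ∀ v : Place Kbar (FFL L), v.ord (jFL L) < 0 →
    ∃ g : SL(2, ℤ), cuspPlace (Fermat.Agent.DS.G.X0.CuspGood.good C) g = v

section Main

variable (n e : ℕ) [NeZero n] (cv : SL(2, ℤ) → Option Kbar)
variable {C}

/-- At a place over `j = ∞` where `t - c` vanishes, `c` is a (finite) cusp value. -/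
theorem exists_cv_eq_of_ord_jF_neg (hI : PlaceInputs C) (h : TMem n e L)
    (hC : ∀ γ : SL(2, ℤ), CuspShape n (C.T γ (tF L h)) (cv γ))
    (v : Place Kbar (FFL L)) (hv : v.ord (jFL L) < 0) (c : Kbar)
    (hpos : 0 < v.ord (tF L h - algebraMap Kbar (FFL L) c)) : ∃ γ, cv γ = some c := by
  have hG := Fermat.Agent.DS.G.X0.CuspGood.good C
  obtain ⟨g, rfl⟩ := hI.cuspSurj v hv
  obtain ⟨m, hm, hspec, -⟩ := cuspPlace_spec hG g
  have hne : tF L h - algebraMap Kbar (FFL L) c ≠ 0 := by
    intro h0
    rw [h0, Place.ord_zero] at hpos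
    exact lt_irrefl _ hpos
  have hord := hspec _ hne
  rw [map_sub, hG.map_const] at hord
  have hm' : (0 : ℤ) < m := by exact_mod_cast hm
  have hordpos : 0 < (C.T g⁻¹ (tF L h) - HahnSeries.C c).order := by
    rw [hord]
    positivity
  refine ⟨g⁻¹, ?_⟩
  have hshape := hC g⁻¹
  rcases hcv : cv g⁻¹ with _ | c₀
  · rw [hcv] at hshape
    have := order_sub_neg_of_none (c := c) hshape
    omega
  · rw [hcv] at hshape
    by_cases hcc : c₀ = c
    · rw [hcc]
    · have := order_sub_nonpos_of_some hshape hcc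
      omega

/-- **(H1)** zeros of `t - c` at non-cusp values are simple. -/
theorem ord_sub_eq_one (hI : PlaceInputs C) (h : TMem n e L)
    (hU : ∀ v : Place Kbar (FFL L), 0 ≤ v.ord (jFL L) →
      ∃ c : Kbar, v.ord (tF L h - algebraMap Kbar (FFL L) c) = 1)
    (hC : ∀ γ : SL(2, ℤ), CuspShape n (C.T γ (tF L h)) (cv γ))
    (v : Place Kbar (FFL L)) (c : Kbar) (hnc : ∀ γ, cv γ ≠ some c)
    (hpos : 0 < v.ord (tF L h - algebraMap Kbar (FFL L) c)) :
    v.ord (tF L h - algebraMap Kbar (FFL L) c) = 1 := by
  by_cases hv : 0 ≤ v.ord (jFL L)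
  · obtain ⟨c', hc'⟩ := hU v hv
    by_cases hcc : c' = c
    · rw [← hcc]; exact hc'
    · exfalso
      have hconst : algebraMap Kbar (FFL L) (c' - c) ≠ 0 := by
        rw [Ne, map_eq_zero]
        exact sub_ne_zero.mpr hcc
      have h0 : v.ord (algebraMap Kbar (FFL L) (c' - c)) = 0 := ffp_ord_algebraMap v _
      have hlt : v.ord (algebraMap Kbar (FFL L) (c' - c))
          < v.ord (tF L h - algebraMap Kbar (FFL L) c') := by rw [h0, hc']; exact zero_lt_one
      have := ffp_ord_add_eq_of_lt v hconst hlt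
      rw [h0] at this
      have heq : algebraMap Kbar (FFL L) (c' - c) + (tF L h - algebraMap Kbar (FFL L) c')
          = tF L h - algebraMap Kbar (FFL L) c := by
        rw [map_sub]; ring
      rw [heq] at this
      omega
  · exfalso
    obtain ⟨γ, hγ⟩ := exists_cv_eq_of_ord_jF_neg n e cv hI h hC v (not_le.mp hv) c hpos
    exact hnc γ hγ

/-- The same from the literal `Interface12` Props. -/
theorem ord_sub_eq_one' (hI : PlaceInputs C) (hU : Unbranched n e L) (hC : CuspExp n e L C cv)
    (h : TMem n e L)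
    (v : Place Kbar (FFL L)) (c : Kbar) (hnc : ∀ γ, cv γ ≠ some c)
    (hpos : 0 < v.ord (tF L h - algebraMap Kbar (FFL L) c)) :
    v.ord (tF L h - algebraMap Kbar (FFL L) c) = 1 := by
  obtain ⟨h1, hU'⟩ := hU
  obtain ⟨h2, hC'⟩ := hC
  exact ord_sub_eq_one n e cv hI h hU' hC' v c hnc hpos

/-- **The input of the level-free horizontal bridge** `DS/G/PUR/HorizAbs`. -/
theorem simpleOff (hI : PlaceInputs C) (hU : Unbranched n e L) (hC : CuspExp n e L C cv)
    (h : TMem n e L) : Fermat.Agent.DS.G.PUR.HorizAbs.SimpleOff cv (tF L h) :=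
  fun v c hnc hpos => ord_sub_eq_one' n e cv hI hU hC h v c hnc hpos

end Main

end Fermat.Agent.DS.G.PUR.HorizUnram20
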