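/-
Programme DS (S48), chapter G-RED / PUR twins (helper29).  Generic twin of `RED/PUR/OffConcrete4`:
the CONCRETE purity theorem away from the cusp values, at ONE pair `(O, E)`, level-free.

`K` a field of characteristic zero, `O` a discrete valuation subring with finite residue field of
characteristic `ℓ`, `E ≤ Frac O((q))` an intermediate field of `K((q)) / K`, `t ∈ E` with underlying
series the Hauptmodul `tq K n e`.  From
* (DEG)+(IRR) at `tG = TBridge15.tG O n e` (output of chapter IGU: `IrrOfSpan.g1_of_span` +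
  `Abs51Tower.degLe_irr_tower`), and
* the horizontal bridge `OffIface4.HUNROff O E π t S` (`DS/G/PUR/HorizAbs.hunrOff_generic`),
we get `ModelIface4.SmoothOff O E π t S`.  Everything else (`t̃` transcendental, `ord t̃ = -1` prime
to `ℓ`, finiteness of `E / K(t)`) is discharged inside, as in the original.

The original `offTarget_of_hunr` is the instance `O = AK A K`, `E = FK M K`.
-/
import Fermat.Agent.RED.PUR.OffIface4
import Fermat.Agent.RED.PUR.TqOrder26
import Fermat.Agent.RED.BASE.TBridge15
import Fermat.Agent.RED.ModelAsm4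
import Fermat.Agent.DS.G.RED.Igusa.Abs51Tower

set_option autoImplicit false
set_option linter.unusedSectionVars false
set_option linter.unusedVariables false
set_option linter.style.haveILetI false

open HahnSeries ModularCurve IntermediateField

noncomputable section

namespace Fermat.Agent.DS.G.PUR.OffConcrete4

open Fermat.Agent.RED.PUR.GaussGen8 Fermat.Agent.RED.PUR.KtGauss8
  Fermat.Agent.RED.PUR.G1Package8 Fermat.Agent.RED.ModelIface4
  Fermat.Agent.RED.BASE.EtaQuot12 Fermat.Agent.RED.PUR.OffIface4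
  Fermat.Agent.RED.BASE.TBridge15

variable {K : Type*} [Field K] [CharZero K] (O : ValuationSubring K) [IsDiscreteValuationRing ↥O]
  {π : ↥O} (E : IntermediateField K (LaurentSeries K)) (n e : ℕ) [NeZero n]

/-- The common preparation of `OffConcrete4` / `CuspConcrete23` at `(O, E, t)`:
`t ∈ gaussRing O`, `t̃` transcendental, `[E : K(t)] ≠ 0`, `E / K(t)` finite, `t` transcendental,
`ord t̃` prime to `ℓ`. -/
theorem prep (hπ : Irreducible π) (t : ↥E) (htq : (t : LaurentSeries K) = tq K n e)
    {nn : ℕ} (hdeg : DegLe O E (tG O n e) nn) (ℓ : ℤ) :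
    ∃ ht : (t : LaurentSeries K) ∈ gaussRing O,
      (⟨(t : LaurentSeries K), ht⟩ : ↥(gaussRing O)) = tG O n e ∧
      Transcendental (Res O) (gaussRed O ⟨(t : LaurentSeries K), ht⟩) ∧
      relfinrank (Kt O ⟨(t : LaurentSeries K), ht⟩) E ≠ 0 ∧
      FiniteDimensional ↥(IntermediateField.adjoin K {t}) ↥E ∧
      Transcendental K t ∧
      IsCoprime (gaussRed O ⟨(t : LaurentSeries K), ht⟩).order ℓ := by
  have ht : (t : LaurentSeries K) ∈ gaussRing O := by
    rw [htq]; exact tq_mem_gaussRing O n e
  have h1 : (⟨(t : LaurentSeries K), ht⟩ : ↥(gaussRing O)) = tG O n e := Subtype.ext htq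
  have htr : Transcendental (Res O) (gaussRed O ⟨(t : LaurentSeries K), ht⟩) := by
    rw [h1]; exact transcendental_gaussRed_tG O n e
  have htE : ((tG O n e : ↥(gaussRing O)) : LaurentSeries K) ∈ E := by
    rw [coe_tG, ← htq]; exact t.2
  have hn : relfinrank (Kt O ⟨(t : LaurentSeries K), ht⟩) E ≠ 0 := by
    rw [h1]
    exact Fermat.Agent.DS.G.RED.Igusa.Abs51Tower.relfinrank_ne_zero_of_family_bound
      (Kt_le htE) nn hdeg
  have hfd : FiniteDimensional ↥(IntermediateField.adjoin K {t}) ↥E :=
    Fermat.Agent.RED.ModelAsm4.finiteDimensional_adjoin t hn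
  have htrK : Transcendental K t :=
    Fermat.Agent.RED.ModelAsm4.transcendental_of_coe t
      (transcendental_t (tG := ⟨(t : LaurentSeries K), ht⟩) hπ htr)
  exact ⟨ht, h1, htr, hn, hfd, htrK,
    Fermat.Agent.RED.PUR.TqOrder26.isCoprime_order_gaussRed O n e t ht htq ℓ⟩

/-- **PUR-concrete at one `(O, E)`**, given (DEG)+(IRR) and the horizontal bridge at the non-cusp
closed points. -/
theorem smoothOff_of_hunr (hπ : Irreducible π) (hE : E ≤ fracField O)
    (ℓ : ℕ) [Fact ℓ.Prime] [CharP (Res O) ℓ] [Finite (Res O)]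
    (t : ↥E) (htq : (t : LaurentSeries K) = tq K n e)
    {nn : ℕ} (hdeg : DegLe O E (tG O n e) nn) (hirr : Irr O E (tG O n e) nn)
    (S : Set ↥O) (hH : HUNROff O E π t S) : SmoothOff O E π t S := by
  obtain ⟨ht, h1, htr, hn, hfd, htrK, hord⟩ := prep O E n e hπ t htq hdeg (ℓ : ℤ)
  have hdeg' : DegLe O E ⟨(t : LaurentSeries K), ht⟩ nn := by rw [h1]; exact hdeg
  have hirr' : Irr O E ⟨(t : LaurentSeries K), ht⟩ nn := by rw [h1]; exact hirr
  exact smoothOff_of_hunrOff hπ hE t ht htr hdeg' hirr' ℓ hord htrK S hH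

end Fermat.Agent.DS.G.PUR.OffConcrete4
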