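/-
Programme DS (S48), chapter G-RED / PUR twins (helper29).  Generic twin of `RED/PUR/OffHoriz4`:
**(LOC) at the NON-cusp closed points of the chart `t`, for an abstract level `L : LevelData`.**

* §BaseChange : `bcHom F₀ K : K·F₀ → ℚbar·F₀` (coefficientwise), `exists_place_above`, for an
  ARBITRARY rational field `F₀` (twin of `RED/DESC/PlaceExtend27` §Concrete);
* §Generic    : `smoothOff_generic` : at one pair `(O, E)`, level-free, from `HorizAbs.SimpleOff`,
  (DEG)+(IRR) and the places-extension data `(bc, hExt)`;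
* §Concrete   : `exists_finset_cuspValues` (finiteness of the set of finite cusp values, from
  `C.T (δ γ) = C.T γ`, `δ ∈ L.Gam`), `hH_off`, `offTarget` : the `OffTarget`-shaped statement for
  `E_K := laurentBaseChange K L.F₀`, over all large number fields `K`.

Inputs of `offTarget` which are NOT proved here (they are outputs of other bricks):
* `hI : PlaceInputs C`            — G-X0 Degree/CuspSurj twins;
* `hgen hU hC`                    — helper77's BASE twin (`TIsGen`, `Unbranched`, `CuspExp`);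
* `hfrac : K·F₀ ≤ Frac A_K((q))` — GaussBridge twin (`GaussUnit25.FC_le_fracField` + `FKG_eq`);
* `hG1` : (DEG)+(IRR) at `tG`     — chapter IGU.
-/
import Mathlib
import Fermat.Agent.DS.G.PUR.HorizAbs
import Fermat.Agent.DS.G.PUR.HorizUnram20
import Fermat.Agent.DS.G.PUR.OffConcrete4
import Fermat.Agent.RED.ModelTargets4
import Fermat.Agent.RED.DESC.PlaceExtend27
import Fermat.Agent.RED.DESC.NumberFieldDVR27

set_option autoImplicit false
set_option linter.unusedSectionVars false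
set_option linter.unusedVariables false
set_option linter.style.haveILetI false

open HahnSeries ModularCurve IntermediateField AlgebraicCurve
open scoped MatrixGroups
open Polynomial

noncomputable section

namespace Fermat.Agent.DS.G.PUR.OffHoriz4

open Fermat.Agent.X0 Fermat.Agent.X0.FF
open Fermat.Agent.RED.BASE.EtaQuot12
open Fermat.Agent.RED.PUR.OffIface4
open Fermat.Agent.RED.Interface4 (Qbar AK)

/-! ### coefficientwise base change `K·F₀ → ℚbar·F₀` -/

section BaseChange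

open Fermat.Agent.RED.DESC

variable (F₀ : IntermediateField ℚ (LaurentSeries ℚ)) (K : IntermediateField ℚ Qbar)

/-- Coefficientwise base change `K·F₀ → ℚ̄·F₀`. -/
def bcHom : ↥(laurentBaseChange K F₀) →+* ↥(laurentBaseChange Qbar F₀) :=
  RingHom.codRestrict ((coeffMap (algebraMap K Qbar)).comp (laurentBaseChange K F₀).val.toRingHom)
    (laurentBaseChange Qbar F₀)
    (fun f => CoeffDescent1.coeffMap_mem_laurentBaseChange_of_algHom (algebraMap K Qbar) F₀ f.2)

@[simp] theorem coe_bcHom (f : ↥(laurentBaseChange K F₀)) :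
    ((bcHom F₀ K f : ↥(laurentBaseChange Qbar F₀)) : LaurentSeries Qbar) =
      coeffMap (algebraMap K Qbar) (f : LaurentSeries K) := rfl

theorem bcHom_algebraMap (c : K) :
    bcHom F₀ K (algebraMap K ↥(laurentBaseChange K F₀) c) =
      algebraMap Qbar ↥(laurentBaseChange Qbar F₀) (algebraMap K Qbar c) := by
  apply Subtype.ext
  rw [coe_bcHom]
  exact CoeffDescent1.coeffMap_algebraMap_of_ringHom (algebraMap K Qbar) c

/-- **(EXT).**  Every place of `K·F₀ / K` extends to a place of `ℚ̄·F₀ / ℚ̄`. -/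
theorem exists_place_above {x : ↥(laurentBaseChange Qbar F₀)} (hx : FF.IsGen Qbar x)
    (w : Place K ↥(laurentBaseChange K F₀)) :
    ∃ (v : Place Qbar ↥(laurentBaseChange Qbar F₀)) (e : ℕ), 0 < e ∧
      ∀ f : ↥(laurentBaseChange K F₀), v.ord (bcHom F₀ K f) = (e : ℤ) * w.ord f := by
  have h1 := PlaceExtend27.isAlgebraic_Qbar_over K
  exact PlaceExtend27.exists_place_above_abstract (bcHom F₀ K) (bcHom_algebraMap F₀ K) hx w

/-- The Hauptmodul over `K` maps to the Hauptmodul over `ℚ̄`. -/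
theorem coe_bcHom_of_tq {n e : ℕ} [NeZero n] (t : ↥(laurentBaseChange K F₀))
    (ht : (t : LaurentSeries K) = tq K n e) :
    ((bcHom F₀ K t : ↥(laurentBaseChange Qbar F₀)) : LaurentSeries Qbar) = tq Qbar n e := by
  rw [coe_bcHom, ht]
  exact coeffMap_tq ↥K (algebraMap K Qbar) n e

end BaseChange

/-! ### one pair `(O, E)`, level-free -/

section Generic

open Fermat.Agent.RED.PUR.GaussGen8 Fermat.Agent.RED.PUR.G1Package8
  Fermat.Agent.RED.ModelIface4 Fermat.Agent.RED.BASE.TBridge15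
open Fermat.Agent.DS.G.PUR.HorizAbs

variable {Lb Fb : Type*} [Field Lb] [IsAlgClosed Lb] [Field Fb] [Algebra Lb Fb]
variable {ι : Type*} (cv : ι → Option Lb)

/-- **(LOC) away from the cusp values at one `(O, E)`.** -/
theorem smoothOff_generic {x : Fb} (hx : FF.IsGen Lb x) {T : Fb} (hsimple : SimpleOff cv T)
    (hconst : ∀ c : Lb, T ≠ algebraMap Lb Fb c)
    {K : Type*} [Field K] [CharZero K] [Algebra K Lb] [Algebra.IsAlgebraic K Lb]
    (O : ValuationSubring K) [IsDiscreteValuationRing ↥O]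
    (E : IntermediateField K (LaurentSeries K)) (hE : E ≤ fracField O)
    (hcvA : ∀ γ c, cv γ = some c → ∃ a : ↥O, algebraMap K Lb (a : K) = c)
    (bc : ↥E →+* Fb)
    (hbc : ∀ a : K, bc (algebraMap K ↥E a) = algebraMap Lb Fb (algebraMap K Lb a))
    (n e : ℕ) [NeZero n] (t : ↥E) (htq : (t : LaurentSeries K) = tq K n e) (ht : bc t = T)
    (hExt : ∀ w : Place K ↥E, ∃ (v : Place Lb Fb) (d : ℕ), 0 < d ∧
      ∀ f : ↥E, v.ord (bc f) = (d : ℤ) * w.ord f)
    {π : ↥O} (hπ : Irreducible π)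
    (ℓ : ℕ) [Fact ℓ.Prime] [CharP (Res O) ℓ] [Finite (Res O)]
    {nn : ℕ} (hdeg : DegLe O E (tG O n e) nn) (hirr : Irr O E (tG O n e) nn) :
    SmoothOff O E π t {c | ∃ γ, cv γ = some (algebraMap K Lb (c : K))} :=
  Fermat.Agent.DS.G.PUR.OffConcrete4.smoothOff_of_hunr O E n e hπ hE ℓ t htq hdeg hirr _
    (hunrOff_generic cv hx hsimple hconst O E hcvA bc hbc t ht hExt hπ)

end Generic

/-! ### the level `L`, all large number fields -/

section Concrete

open Fermat.Agent.RED.ModelTargets4 Fermat.Agent.RED.NumInst4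
  Fermat.Agent.RED.DESC.NumberFieldDVR27 Fermat.Agent.RED.DESC.PlaceExtend27
  Fermat.Agent.RED.PUR.GaussGen8 Fermat.Agent.RED.PUR.G1Package8
  Fermat.Agent.RED.ModelIface4 Fermat.Agent.RED.BASE.TBridge15
open Fermat.Agent.DS.G.Level Fermat.Agent.DS.G.X0.CuspPlaces
open Fermat.Agent.DS.G.RED.BASE.Interface12
open Fermat.Agent.RED.BASE.Interface12 (CuspShape IsIntAway)
open Fermat.Agent.DS.G.PUR.HorizUnram20 (PlaceInputs)

variable {n e : ℕ} [NeZero n] {L : LevelData} {D : RealizeDataK L} {C : CuspDataK L D}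
  {A : ValuationSubring Qbar}

/-- a finite cusp value is the constant coefficient of the cusp expansion. -/
theorem coeff_zero_of_cuspShape {m : ℕ} {E : LaurentSeries Kbar} {c : Kbar}
    (h : CuspShape m E (some c)) : E.coeff 0 = c := by
  obtain ⟨a, lam, V, ha, -, -, -, -, hE⟩ := h
  rw [hE, HahnSeries.coeff_add,
    Fermat.Agent.RED.PUR.HorizUnram20.coeff_tail_of_lt lam a V (by exact_mod_cast ha), add_zero,
    HahnSeries.C_apply, HahnSeries.coeff_single_same]

/-- **(FIN)** the finite cusp values form a finite set (generic level). -/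
theorem exists_finset_cuspValues (cv : SL(2, ℤ) → Option Kbar) (hcv : CuspExp n e L C cv) :
    ∃ S : Finset Kbar, ∀ (γ : SL(2, ℤ)) (c : Kbar), cv γ = some c → c ∈ S := by
  classical
  obtain ⟨h, hC⟩ := hcv
  have hG := Fermat.Agent.DS.G.X0.CuspGood.good C
  haveI : Finite (SL(2, ℤ) ⧸ L.Gam) := LevelData.finite_quotient L
  haveI : Fintype (SL(2, ℤ) ⧸ L.Gam) := Fintype.ofFinite _
  refine ⟨Finset.univ.image (fun x : SL(2, ℤ) ⧸ L.Gam =>
    (C.T (Quotient.out x)⁻¹ (tF L h)).coeff 0), fun γ c hγ => ?_⟩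
  rw [Finset.mem_image]
  refine ⟨QuotientGroup.mk γ⁻¹, Finset.mem_univ _, ?_⟩
  set g : SL(2, ℤ) := Quotient.out (QuotientGroup.mk γ⁻¹ : SL(2, ℤ) ⧸ L.Gam) with hg
  have hmk : (QuotientGroup.mk g : SL(2, ℤ) ⧸ L.Gam) = QuotientGroup.mk γ⁻¹ :=
    Quotient.out_eq _
  have hmem : γ * g ∈ L.Gam := by
    have := QuotientGroup.eq.mp hmk.symm
    rwa [inv_inv] at this
  have hT : C.T g⁻¹ = C.T γ := by
    have h1 : g⁻¹ = (γ * g)⁻¹ * γ := by group
    rw [h1]
    exact hG.mul_left _ (L.Gam.inv_mem hmem) γ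
  rw [hT]
  have hshape := hC γ
  rw [hγ] at hshape
  exact coeff_zero_of_cuspShape hshape

/-- **The horizontal bridge at the non-cusp closed points, level `L`, all large number fields.** -/
theorem hH_off (hI : PlaceInputs C) (cv : SL(2, ℤ) → Option Kbar)
    (hgen : TIsGen n e L) (hU : Unbranched n e L) (hC : CuspExp n e L C cv)
    {ℓ : ℕ} [Fact ℓ.Prime] (hℓn : ¬ ℓ ∣ n) (hA : A.LiesOverPrime ℓ) :
    ∃ K₀ : IntermediateField ℚ Qbar, FiniteDimensional ℚ K₀ ∧
      ∀ K : IntermediateField ℚ Qbar, FiniteDimensional ℚ K → K₀ ≤ K →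
        ∀ ϖ : ↥(AK A K), Irreducible ϖ →
          ∀ t : ↥(laurentBaseChange K L.F₀), (t : LaurentSeries K) = tq K n e →
            HUNROff (AK A K) (laurentBaseChange K L.F₀) ϖ t (cuspSet A K cv) := by
  classical
  have hℓ : ℓ.Prime := Fact.out
  obtain ⟨S, hS⟩ := exists_finset_cuspValues cv hC
  obtain ⟨K₀, hK₀, -, hSK⟩ := exists_numberField (⊥ : IntermediateField ℚ Qbar) S
  refine ⟨K₀, hK₀, fun K hKfd hle ϖ hϖ t htq => ?_⟩
  have hdvr : IsDiscreteValuationRing ↥(AK A K) := isDiscreteValuationRing_AK A K hℓ.ne_zero hA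
  haveI halg : Algebra.IsAlgebraic ↥K Kbar := isAlgebraic_Qbar_over K
  have hsimple := Fermat.Agent.DS.G.PUR.HorizUnram20.simpleOff n e cv hI hU hC
  obtain ⟨h, hC'⟩ := hC
  obtain ⟨h'', hgen'⟩ := hgen
  have hconst : ∀ c : Kbar, tF L h ≠ algebraMap Kbar (FFL L) c := fun c h0 =>
    hgen'.sub_algebraMap_ne_zero c (sub_eq_zero.mpr h0)
  have hnA : ((n : Kbar))⁻¹ ∈ A := inv_natCast_mem hℓ hA n hℓn
  have hcvA : ∀ γ c, cv γ = some c → ∃ a : ↥(AK A K), algebraMap ↥K Kbar (a : ↥K) = c := by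
    intro γ c hγ
    have hcK : c ∈ K := hle (hSK c (hS γ c hγ))
    have hshape := hC' γ
    rw [hγ] at hshape
    obtain ⟨a, lam, V, -, -, -, -, hcint, -⟩ := hshape
    have hcA : c ∈ A := hcint.mem_of_inv_mem A hnA (NeZero.ne n)
    exact ⟨⟨⟨c, hcK⟩, hcA⟩, rfl⟩
  exact Fermat.Agent.DS.G.PUR.HorizAbs.hunrOff_generic cv hI.isGen (hsimple h) hconst
    (AK A K) (laurentBaseChange K L.F₀) hcvA
    (bcHom L.F₀ K) (bcHom_algebraMap L.F₀ K) t
    (Subtype.ext (coe_bcHom_of_tq L.F₀ K t htq))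
    (exists_place_above L.F₀ K hI.isGen) hϖ

/-- **PUR-concrete, level `L`**: (LOC) at the non-cusp closed points of the chart `t`, in the
`OffTarget` shape for `E_K := laurentBaseChange K L.F₀`. -/
theorem offTarget (hI : PlaceInputs C) (cv : SL(2, ℤ) → Option Kbar)
    (hgen : TIsGen n e L) (hU : Unbranched n e L) (hC : CuspExp n e L C cv)
    {ℓ : ℕ} [Fact ℓ.Prime] (hℓn : ¬ ℓ ∣ n) (hA : A.LiesOverPrime ℓ)
    (hfrac : ∀ K : IntermediateField ℚ Qbar, FiniteDimensional ℚ K →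
      laurentBaseChange K L.F₀ ≤ fracField (AK A K))
    (hG1 : ∃ K₁ : IntermediateField ℚ Qbar, FiniteDimensional ℚ K₁ ∧
      ∀ K : IntermediateField ℚ Qbar, FiniteDimensional ℚ K → K₁ ≤ K →
        ∃ nn : ℕ, DegLe (AK A K) (laurentBaseChange K L.F₀) (tG (AK A K) n e) nn ∧
          Irr (AK A K) (laurentBaseChange K L.F₀) (tG (AK A K) n e) nn) :
    ∃ K₀ : IntermediateField ℚ Qbar, FiniteDimensional ℚ K₀ ∧
      ∀ K : IntermediateField ℚ Qbar, FiniteDimensional ℚ K → K₀ ≤ K →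
        ∀ ϖ : ↥(AK A K), Irreducible ϖ →
          ∀ t : ↥(laurentBaseChange K L.F₀), (t : LaurentSeries K) = tq K n e →
            SmoothOff (AK A K) (laurentBaseChange K L.F₀) ϖ t (cuspSet A K cv) := by
  have hℓ : ℓ.Prime := Fact.out
  obtain ⟨K₀, hK₀, hH⟩ := hH_off hI cv hgen hU hC hℓn hA
  obtain ⟨K₁, hK₁, hG⟩ := hG1
  refine ⟨K₀ ⊔ K₁, inferInstance, fun K hKfd hle ϖ hϖ t htq => ?_⟩
  have hle0 : K₀ ≤ K := le_trans le_sup_left hle
  have hle1 : K₁ ≤ K := le_trans le_sup_right hle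
  have hdvr : IsDiscreteValuationRing ↥(AK A K) := isDiscreteValuationRing_AK A K hℓ.ne_zero hA
  have hchar : CharP (Res (AK A K)) ℓ := charP_residueField_AK A K hℓ hA
  have hfinres : Finite (Res (AK A K)) := finite_residueField_AK A K hℓ.ne_zero hA
  obtain ⟨nn, hdeg, hirr⟩ := hG K hKfd hle1
  exact Fermat.Agent.DS.G.PUR.OffConcrete4.smoothOff_of_hunr (AK A K) (laurentBaseChange K L.F₀)
    n e hϖ (hfrac K hKfd) ℓ t htq hdeg hirr (cuspSet A K cv) (hH K hKfd hle0 ϖ hϖ t htq)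

end Concrete

end Fermat.Agent.DS.G.PUR.OffHoriz4
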