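/-
Programme DS (S48), chapter G-RED / PUR twins (helper29).  **`OffTarget` for an abstract level**, in
helper77's contract shape (`DS/G/RED/ModelTargets4`, `DS/G/RED/ModelMain4`):

  `offTarget_of_gaussInputs : ModelTargets4.OffTarget L.F₀ n e A cv`

from `PlaceInputs C` (G-X0), the BASE Props `TIsGen`, `Unbranched`, `CuspExp` at `L`
(`DS/G/RED/BASE/Interface12`), `GaussInputs L.F₀ A` (Igusa: `GaussInputsOfIgusa`), `TTarget L.F₀ n e`
(`ModelMain4.tTarget`) and `JTarget n e` (`ModelFinal4.jTarget`, level-free).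
This is the input `hoff` of `ModelMain4.modelStep_of_targets` / `modelStep_of_smooth`.
-/
import Mathlib
import Fermat.Agent.DS.G.PUR.OffHoriz4
import Fermat.Agent.DS.G.RED.ModelMain4

set_option autoImplicit false
set_option linter.unusedSectionVars false
set_option linter.unusedVariables false
set_option linter.style.haveILetI false

open HahnSeries ModularCurve IntermediateField AlgebraicCurve
open scoped MatrixGroups

noncomputable section

namespace Fermat.Agent.DS.G.PUR.OffTarget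

open Fermat.Agent.X0
open Fermat.Agent.RED.BASE.EtaQuot12
open Fermat.Agent.RED.Interface4 (Qbar AK)
open Fermat.Agent.RED.ModelTargets4 (cuspSet JTarget)
open Fermat.Agent.RED.DESC.NumberFieldDVR27
open Fermat.Agent.RED.PUR.GaussGen8 Fermat.Agent.RED.PUR.KtGauss8 Fermat.Agent.RED.PUR.G1Package8
  Fermat.Agent.RED.BASE.TBridge15
open Fermat.Agent.DS.G.Level
open Fermat.Agent.DS.G.RED.BASE.Interface12
open Fermat.Agent.DS.G.RED.ModelTargets4 Fermat.Agent.DS.G.RED.ModelMain4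
open Fermat.Agent.DS.G.PUR.HorizUnram20 (PlaceInputs)

variable {n e : ℕ} [NeZero n] {L : LevelData} {D : RealizeDataK L} {C : CuspDataK L D}
  {A : ValuationSubring Qbar}

/-- (DEG)+(IRR) at the Hauptmodul, for all large number fields, from `GaussInputs`. -/
theorem exists_degLe_irr_tG {F₀ : IntermediateField ℚ (LaurentSeries ℚ)}
    {ℓ : ℕ} [Fact ℓ.Prime] (hA : A.LiesOverPrime ℓ)
    (hG : GaussInputs F₀ A) (hT : TTarget F₀ n e) (hJ : JTarget n e) :
    ∃ K₁ : IntermediateField ℚ Qbar, FiniteDimensional ℚ K₁ ∧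
      ∀ K : IntermediateField ℚ Qbar, FiniteDimensional ℚ K → K₁ ≤ K →
        FK F₀ K ≤ fracField (AK A K) ∧
        ∃ nn : ℕ, DegLe (AK A K) (FK F₀ K) (tG (AK A K) n e) nn ∧
          Irr (AK A K) (FK F₀ K) (tG (AK A K) n e) nn := by
  have hℓ : ℓ.Prime := Fact.out
  obtain ⟨K₁, hK₁, hG⟩ := hG
  obtain ⟨K₂, hK₂, hT⟩ := hT
  obtain ⟨K₃, hK₃, hJ⟩ := hJ
  refine ⟨K₁ ⊔ K₂ ⊔ K₃, inferInstance, fun K hKfd hle => ?_⟩
  have hle1 : K₁ ≤ K := le_trans (le_trans le_sup_left le_sup_left) hle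
  have hle2 : K₂ ≤ K := le_trans (le_trans le_sup_right le_sup_left) hle
  have hle3 : K₃ ≤ K := le_trans le_sup_right hle
  have hdvr : IsDiscreteValuationRing ↥(AK A K) := isDiscreteValuationRing_AK A K hℓ.ne_zero hA
  have hGK := hG K hKfd hle1
  refine ⟨hGK.le_fracField, ?_⟩
  obtain ⟨nn, -, hdeg, hirr⟩ := hGK.degLe_irr (tG (AK A K) n e)
    (by rw [coe_tG]; exact hT K hKfd hle2)
    (by
      show jqModC K ∈ IntermediateField.adjoin K {((tG (AK A K) n e : ↥(gaussRing (AK A K))) :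
        LaurentSeries K)}
      rw [coe_tG]
      exact hJ K hKfd hle3)
    (transcendental_gaussRed_tG (AK A K) n e)
  exact ⟨nn, hdeg, hirr⟩

/-- **PUR-concrete for the level `L`, contract shape.** -/
theorem offTarget_of_gaussInputs (hI : PlaceInputs C) (cv : SL(2, ℤ) → Option Kbar)
    (hgen : TIsGen n e L) (hU : Unbranched n e L) (hC : CuspExp n e L C cv)
    {ℓ : ℕ} [Fact ℓ.Prime] (hℓn : ¬ ℓ ∣ n) (hA : A.LiesOverPrime ℓ)
    (hG : GaussInputs L.F₀ A) (hT : TTarget L.F₀ n e) (hJ : JTarget n e) :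
    OffTarget L.F₀ n e A cv := by
  obtain ⟨K₁, hK₁, h1⟩ := exists_degLe_irr_tG (n := n) (e := e) hA hG hT hJ
  obtain ⟨K₀, hK₀, hH⟩ := Fermat.Agent.DS.G.PUR.OffHoriz4.hH_off hI cv hgen hU hC hℓn hA
  have hℓ : ℓ.Prime := Fact.out
  refine ⟨K₀ ⊔ K₁, inferInstance, fun K hKfd hle ϖ hϖ t htq => ?_⟩
  have hle0 : K₀ ≤ K := le_trans le_sup_left hle
  have hle1 : K₁ ≤ K := le_trans le_sup_right hle
  have hdvr : IsDiscreteValuationRing ↥(AK A K) := isDiscreteValuationRing_AK A K hℓ.ne_zero hA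
  have hchar : CharP (Res (AK A K)) ℓ := charP_residueField_AK A K hℓ hA
  have hfinres : Finite (Res (AK A K)) := finite_residueField_AK A K hℓ.ne_zero hA
  obtain ⟨hfrac, nn, hdeg, hirr⟩ := h1 K hKfd hle1
  exact Fermat.Agent.DS.G.PUR.OffConcrete4.smoothOff_of_hunr (AK A K) (FK L.F₀ K)
    n e hϖ hfrac ℓ t htq hdeg hirr (cuspSet A K cv) (hH K hKfd hle0 ϖ hϖ t htq)

end Fermat.Agent.DS.G.PUR.OffTarget
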