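/-
Programme DS (S48), chapter G-RED / PUR twins (helper29).  The structure
`HorizUnram20.PlaceInputs C` (generator `j` + surjectivity of the cusp places) is DISCHARGED from
`hC : C.Distinct` by the G-X0 twins `DS/G/X0/DegreeLc.isGen_jF` (helper17) and
`DS/G/X0/CuspSurj.exists_cuspPlace_eq`.
-/
import Fermat.Agent.DS.G.PUR.HorizUnram20
import Fermat.Agent.DS.G.X0.CuspSurj

set_option autoImplicit false

open scoped MatrixGroups

noncomputable section

namespace Fermat.Agent.DS.G.PUR.PlaceInputsOf

open Fermat.Agent.X0 Fermat.Agent.DS.G.Level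
open Fermat.Agent.DS.G.PUR.HorizUnram20 (PlaceInputs)

variable {L : LevelData} {D : RealizeDataK L} (C : CuspDataK L D)

/-- **`PlaceInputs` from (DISTINCT).** -/
theorem placeInputs (hC : C.Distinct) : PlaceInputs C where
  isGen := Fermat.Agent.DS.G.X0.DegreeLc.isGen_jF iotaK_injective L D C hC
  cuspSurj := fun v hv =>
    Fermat.Agent.DS.G.X0.CuspSurj.exists_cuspPlace_eq iotaK_injective C hC v hv

end Fermat.Agent.DS.G.PUR.PlaceInputsOf
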