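/-
Programme DS (S48), chapter G-RED/PUR, brick PUR-C1 (helper29): the VERTICAL prime of "purity by
hand" for a FAMILY of reductions.

`RED/PUR/DiscAbstract21.discr_notMem_of_separable` needs a reduction `ρ : S → L` into a field with
kernel exactly `𝔮 S` (irreducibility of the special fibre).  Here the single `ρ` is replaced by a
finite family `ρ i : S → L i` whose JOINT kernel is `𝔮 S` (the special fibre is reduced, possibly
reducible), every `ρ i z` separable over `k₀`.  Conclusion unchanged: `discr R b ∉ 𝔮`.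

* `isSeparable_of_injective`: pulling separability back along an injective ring hom over an
  isomorphism of base fields;
* `discr_notMem_of_separable_family`;
* `not_dvd_discr_of_separable_family`, `smooth_of_purity_family`: the twins of
  `PurityMain26.not_dvd_discr_of_separable` and `PurityMain26.smooth_of_purity`.
-/
import Mathlib
import Fermat.Agent.RED.PUR.DiscrEtale21
import Fermat.Agent.RED.PUR.DiscAbstract21
import Fermat.Agent.RED.PUR.PurityMain26

set_option autoImplicit false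
set_option linter.style.haveILetI false
set_option linter.unusedSectionVars false

open Module IsLocalRing Polynomial

namespace Fermat.Agent.DS.G.PUR.DiscrMulti

open Fermat.Agent.RED.PUR.DiscrEtale21 Fermat.Agent.RED.PUR.DiscAbstract21

/-- Separability pulls back along an injective ring homomorphism `φ : D → L` lying over an
isomorphism `e : κ ≃ k₀` of the base fields. -/
theorem isSeparable_of_injective {κ k₀ D L : Type*} [Field κ] [Field k₀] [CommRing D] [Field L]
    [Algebra κ D] [Algebra k₀ L] (e : κ ≃+* k₀) (φ : D →+* L) (hφ : Function.Injective φ)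
    (hcomp : ∀ a : κ, φ (algebraMap κ D a) = algebraMap k₀ L (e a)) (d : D)
    (h : IsSeparable k₀ (φ d)) : IsSeparable κ d := by
  let Q : κ[X] := (minpoly k₀ (φ d)).map e.symm.toRingHom
  have hQsep : Q.Separable := Polynomial.Separable.map (f := e.symm.toRingHom) h
  have hQroot : aeval d Q = 0 := by
    apply hφ
    have hcompose : (φ.comp (algebraMap κ D)).comp e.symm.toRingHom = algebraMap k₀ L := by
      ext a
      simp only [RingHom.comp_apply]
      rw [hcomp]
      congr 1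
      exact e.apply_symm_apply a
    rw [map_zero, aeval_def, hom_eval₂, eval₂_map, hcompose, ← aeval_def, minpoly.aeval]
  exact hQsep.of_dvd (minpoly.dvd _ _ hQroot)

section Generic

variable {R S : Type*} [CommRing R] [CommRing S] [Algebra R S]
  {ι : Type*} [Fintype ι] [DecidableEq ι] (b : Basis ι R S) (𝔮 : Ideal R) [h𝔮 : 𝔮.IsPrime]
  (Rq Sq : Type*) [CommRing Rq] [CommRing Sq] [Algebra R Rq] [IsLocalization.AtPrime Rq 𝔮]
  [Algebra S Sq] [Algebra Rq Sq] [Algebra R Sq] [IsScalarTower R Rq Sq] [IsScalarTower R S Sq]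
  [IsLocalization (Algebra.algebraMapSubmonoid S 𝔮.primeCompl) Sq]

variable {k₀ : Type*} [Field k₀] {I : Type*} [Fintype I] {L : I → Type*} [∀ i, Field (L i)]
  [∀ i, Algebra k₀ (L i)] (ρ₀ : R →+* k₀) (ρ : ∀ i, S →+* L i)

attribute [local instance] Ideal.Quotient.field

include Rq Sq in
/-- generic form (localisations as parameters). -/
theorem discr_notMem_of_separable_family_aux
    (hcomp : ∀ i (r : R), ρ i (algebraMap R S r) = algebraMap k₀ (L i) (ρ₀ r))
    (hker₀ : ∀ r : R, ρ₀ r = 0 ↔ r ∈ 𝔮)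
    (hker : ∀ z : S, (∀ i, ρ i z = 0) ↔ z ∈ 𝔮.map (algebraMap R S))
    (hgen : ∀ c : k₀, ∃ r r' : R, ρ₀ r' ≠ 0 ∧ c * ρ₀ r' = ρ₀ r)
    (hsep : ∀ i (z : S), IsSeparable k₀ (ρ i z)) : Algebra.discr R b ∉ 𝔮 := by
  classical
  have hloc : IsLocalRing Rq := IsLocalization.AtPrime.isLocalRing Rq 𝔮
  let bq := b.localizationLocalization Rq 𝔮.primeCompl Sq
  have hfree : Module.Free Rq Sq := Module.Free.of_basis bq
  have hfin : Module.Finite Rq Sq := Module.Finite.of_basis bq
  set M := Algebra.algebraMapSubmonoid S 𝔮.primeCompl with hM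
  -- extend `ρ₀` and `ρ i` to the localisations
  have hu₀ : ∀ y : 𝔮.primeCompl, IsUnit (ρ₀ y) := fun y =>
    isUnit_iff_ne_zero.mpr fun h => y.2 ((hker₀ _).mp h)
  let ρ₀q : Rq →+* k₀ := IsLocalization.lift hu₀
  have hu : ∀ i (y : M), IsUnit (ρ i y) := by
    rintro i ⟨_, r, hr, rfl⟩
    rw [hcomp]
    exact (isUnit_iff_ne_zero.mpr fun h => hr ((hker₀ _).mp h)).map _
  let ρq : ∀ i, Sq →+* L i := fun i => IsLocalization.lift (hu i)
  have hρq : ∀ i (z : S), ρq i (algebraMap S Sq z) = ρ i z := fun i z =>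
    IsLocalization.lift_eq (hu i) z
  have hρ₀q : ∀ r : R, ρ₀q (algebraMap R Rq r) = ρ₀ r := fun r => IsLocalization.lift_eq hu₀ r
  -- compatibility
  have hcompq : ∀ i (a : Rq), ρq i (algebraMap Rq Sq a) = algebraMap k₀ (L i) (ρ₀q a) := by
    intro i a
    have : ((ρq i).comp (algebraMap Rq Sq)) = (algebraMap k₀ (L i)).comp ρ₀q := by
      apply IsLocalization.ringHom_ext 𝔮.primeCompl
      ext r
      simp only [RingHom.comp_apply]
      rw [← IsScalarTower.algebraMap_apply, IsScalarTower.algebraMap_apply R S Sq, hρq, hρ₀q,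
        hcomp]
    exact congrArg (fun f => f a) this
  set pSq := (maximalIdeal Rq).map (algebraMap Rq Sq) with hpSq
  have hpSq' : pSq = (𝔮.map (algebraMap R S)).map (algebraMap S Sq) :=
    map_maximalIdeal_eq (S := S) 𝔮 Rq Sq
  -- joint kernel of the `ρq i`
  have hkerq : ∀ z : Sq, (∀ i, ρq i z = 0) ↔ z ∈ pSq := by
    intro z
    obtain ⟨z₀, m, rfl⟩ := IsLocalization.exists_mk'_eq M z
    rw [hpSq', IsLocalization.mk'_mem_iff]
    have hz : ∀ i, ρq i (IsLocalization.mk' Sq z₀ m) = 0 ↔ ρ i z₀ = 0 := by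
      intro i
      rw [IsLocalization.lift_mk'_spec, mul_zero]
    simp only [hz]
    constructor
    · intro h
      exact Ideal.mem_map_of_mem _ ((hker _).mp h)
    · intro h i
      rw [IsLocalization.algebraMap_mem_map_algebraMap_iff M] at h
      obtain ⟨m₁, hm₁, h1⟩ := h
      have h2 := (hker _).mpr h1 i
      rw [map_mul] at h2
      exact (mul_eq_zero.mp h2).resolve_left (hu i ⟨m₁, hm₁⟩).ne_zero
  -- the quotient maps
  let κ := Rq ⧸ maximalIdeal Rq
  let C := Sq ⧸ pSq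
  let ρbar : ∀ i, C →+* L i := fun i =>
    Ideal.Quotient.lift pSq (ρq i) fun z hz => (hkerq z).mpr hz i
  have hρbar_mk : ∀ i (z : Sq), ρbar i (Ideal.Quotient.mk pSq z) = ρq i z := fun i z =>
    Ideal.Quotient.lift_mk _ _ _
  have hρbar_inj : ∀ c : C, (∀ i, ρbar i c = 0) → c = 0 := by
    intro c hc
    obtain ⟨z, rfl⟩ := Ideal.Quotient.mk_surjective c
    rw [Ideal.Quotient.eq_zero_iff_mem, ← hkerq]
    intro i
    rw [← hρbar_mk]
    exact hc i
  have hker₀q : ∀ a ∈ maximalIdeal Rq, ρ₀q a = 0 := by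
    intro a ha
    obtain ⟨r, m, rfl⟩ := IsLocalization.exists_mk'_eq 𝔮.primeCompl a
    rw [IsLocalization.lift_mk'_spec]
    have hr : r ∈ 𝔮 := (IsLocalization.AtPrime.mk'_mem_maximal_iff Rq 𝔮 r m).mp ha
    rw [(hker₀ r).mpr hr, mul_zero]
  let ρ₀bar : κ →+* k₀ := Ideal.Quotient.lift (maximalIdeal Rq) ρ₀q hker₀q
  have hρ₀bar_surj : Function.Surjective ρ₀bar := by
    intro c
    obtain ⟨r, r', hr', hc⟩ := hgen c
    have hr'q : r' ∈ 𝔮.primeCompl := fun h => hr' ((hker₀ _).mpr h)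
    refine ⟨Ideal.Quotient.mk _ (IsLocalization.mk' Rq r ⟨r', hr'q⟩), ?_⟩
    show ρ₀q (IsLocalization.mk' Rq r ⟨r', hr'q⟩) = c
    rw [IsLocalization.lift_mk'_spec]
    simp only [hc, mul_comm]
  have hcompbar : ∀ i (a : κ), ρbar i (algebraMap κ C a) = algebraMap k₀ (L i) (ρ₀bar a) := by
    intro i a
    obtain ⟨a, rfl⟩ := Ideal.Quotient.mk_surjective a
    show ρbar i (Ideal.Quotient.mk pSq (algebraMap Rq Sq a)) = _
    rw [hρbar_mk, hcompq]
    rfl
  let e : κ ≃+* k₀ := RingEquiv.ofBijective ρ₀bar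
    ⟨(injective_iff_map_eq_zero ρ₀bar).mpr fun a ha => by
      by_contra hne
      have := (isUnit_iff_ne_zero.mpr hne).map ρ₀bar
      rw [ha] at this
      exact not_isUnit_zero this, hρ₀bar_surj⟩
  have hfinC : Module.Finite κ C := Module.Finite.of_restrictScalars_finite Rq _ _
  have hintC : Algebra.IsIntegral κ C := Algebra.IsIntegral.of_finite κ C
  -- `C` is reduced
  have hred : IsReduced C := by
    refine ⟨fun c hc => hρbar_inj c fun i => ?_⟩
    exact (hc.map (ρbar i)).eq_zero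
  -- residue fields are separable
  rw [discr_notMem_iff_isUnit_of_isLocalization b 𝔮 Rq Sq,
    isUnit_discr_iff_reduced_and_separable]
  refine ⟨hred, fun 𝔪 => ?_⟩
  have h𝔪 : 𝔪.asIdeal.IsMaximal := 𝔪.isMaximal
  have h𝔪p : 𝔪.asIdeal.IsPrime := h𝔪.isPrime
  -- some kernel is contained in `𝔪`
  obtain ⟨i, hi⟩ : ∃ i, RingHom.ker (ρbar i) ≤ 𝔪.asIdeal := by
    by_contra hcon0
    have hcon : ∀ i, ¬ RingHom.ker (ρbar i) ≤ 𝔪.asIdeal := fun i h => hcon0 ⟨i, h⟩
    have hex : ∀ i, ∃ c : C, ρbar i c = 0 ∧ c ∉ 𝔪.asIdeal := by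
      intro i
      obtain ⟨c, hc, hc'⟩ := SetLike.not_le_iff_exists.mp (hcon i)
      exact ⟨c, (RingHom.mem_ker).mp hc, hc'⟩
    choose c hc hc' using hex
    have hprod : (∏ i, c i) = 0 := by
      apply hρbar_inj
      intro j
      rw [map_prod]
      exact Finset.prod_eq_zero (Finset.mem_univ j) (hc j)
    have hmem : (∏ i, c i) ∈ 𝔪.asIdeal := by rw [hprod]; exact 𝔪.asIdeal.zero_mem
    obtain ⟨j, -, hj⟩ := (Ideal.IsPrime.prod_mem_iff (hp := h𝔪p)).mp hmem
    exact hc' j hj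
  -- the kernel is maximal, hence equal to `𝔪`
  have hkerprime : (RingHom.ker (ρbar i)).IsPrime := RingHom.ker_isPrime (ρbar i)
  have hkermax : (RingHom.ker (ρbar i)).IsMaximal := by
    apply Ideal.isMaximal_of_isIntegral_of_isMaximal_comap (R := κ)
    have : (RingHom.ker (ρbar i)).comap (algebraMap κ C) = ⊥ := by
      refine (Ideal.eq_bot_or_top _).resolve_right fun htop => ?_
      have h1 : (1 : κ) ∈ (RingHom.ker (ρbar i)).comap (algebraMap κ C) := by
        rw [htop]; trivial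
      rw [Ideal.mem_comap, map_one] at h1
      exact hkerprime.ne_top ((Ideal.eq_top_iff_one _).mpr h1)
    rw [this]
    exact Ideal.bot_isMaximal
  have hkereq : RingHom.ker (ρbar i) = 𝔪.asIdeal := hkermax.eq_of_le h𝔪.ne_top hi
  let φ : C ⧸ 𝔪.asIdeal →+* L i :=
    Ideal.Quotient.lift 𝔪.asIdeal (ρbar i) fun c hc => by
      rw [← hkereq] at hc
      exact (RingHom.mem_ker).mp hc
  have hφinj : Function.Injective φ := by
    rw [injective_iff_map_eq_zero]
    intro d hd
    obtain ⟨c, rfl⟩ := Ideal.Quotient.mk_surjective d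
    rw [Ideal.Quotient.eq_zero_iff_mem, ← hkereq]
    exact (RingHom.mem_ker).mpr (by simpa [φ] using hd)
  refine ⟨fun d => ?_⟩
  obtain ⟨c, rfl⟩ := Ideal.Quotient.mk_surjective d
  refine isSeparable_of_injective e φ hφinj ?_ _ ?_
  · intro a
    show φ (Ideal.Quotient.mk 𝔪.asIdeal (algebraMap κ C a)) = _
    rw [Ideal.Quotient.lift_mk, hcompbar]
    rfl
  · show IsSeparable k₀ (φ (Ideal.Quotient.mk 𝔪.asIdeal c))
    rw [Ideal.Quotient.lift_mk]
    obtain ⟨z, rfl⟩ := Ideal.Quotient.mk_surjective c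
    obtain ⟨z₀, m, rfl⟩ := IsLocalization.exists_mk'_eq M z
    have : ρbar i (Ideal.Quotient.mk pSq (IsLocalization.mk' Sq z₀ m)) = ρ i z₀ * (ρ i m)⁻¹ := by
      rw [hρbar_mk, eq_mul_inv_iff_mul_eq₀ (hu i m).ne_zero, ← hρq i z₀, ← hρq i m, ← map_mul,
        IsLocalization.mk'_spec]
    rw [this]
    obtain ⟨_, r, hr, rfl⟩ := m
    refine Field.isSeparable_mul (hsep i z₀) (Field.isSeparable_inv ?_)
    show IsSeparable k₀ (ρ i (algebraMap R S r))
    rw [hcomp]
    exact isSeparable_algebraMap _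

end Generic

section Main

variable {R S : Type*} [CommRing R] [CommRing S] [Algebra R S]
  {ι : Type*} [Fintype ι] [DecidableEq ι] (b : Basis ι R S) (𝔮 : Ideal R) [h𝔮 : 𝔮.IsPrime]

/-- **VERTICAL prime, family form.**  `ρ i : S → L i` ring homs into fields with JOINT kernel `𝔮 S`,
compatible with `ρ₀ : R → k₀` (`k₀` a field generated by `ρ₀ R`, kernel `𝔮`); if every `ρ i z` is
separable over `k₀` then the discriminant is not in `𝔮`. -/
theorem discr_notMem_of_separable_family {k₀ : Type*} [Field k₀] {I : Type*} [Fintype I]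
    {L : I → Type*} [∀ i, Field (L i)] [∀ i, Algebra k₀ (L i)]
    (ρ₀ : R →+* k₀) (ρ : ∀ i, S →+* L i)
    (hcomp : ∀ i (r : R), ρ i (algebraMap R S r) = algebraMap k₀ (L i) (ρ₀ r))
    (hker₀ : ∀ r : R, ρ₀ r = 0 ↔ r ∈ 𝔮)
    (hker : ∀ z : S, (∀ i, ρ i z = 0) ↔ z ∈ 𝔮.map (algebraMap R S))
    (hgen : ∀ c : k₀, ∃ r r' : R, ρ₀ r' ≠ 0 ∧ c * ρ₀ r' = ρ₀ r)
    (hsep : ∀ i (z : S), IsSeparable k₀ (ρ i z)) : Algebra.discr R b ∉ 𝔮 := by
  let Rq := Localization.AtPrime 𝔮
  let Sq := Localization (Algebra.algebraMapSubmonoid S 𝔮.primeCompl)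
  let _ : Algebra Rq Sq := localizationAlgebra 𝔮.primeCompl S
  have : IsScalarTower R Rq Sq := IsScalarTower.of_algebraMap_eq'
    (by rw [RingHom.algebraMap_toAlgebra, IsLocalization.map_comp, ← IsScalarTower.algebraMap_eq])
  exact discr_notMem_of_separable_family_aux b 𝔮 Rq Sq ρ₀ ρ hcomp hker₀ hker hgen hsep

end Main

section C

open Fermat.Agent.RED.PUR.LocalFree26 Fermat.Agent.RED.PUR.PurityMain26

variable {R0 : Type*} [CommRing R0] [IsDomain R0]
  (B : Type*) [CommRing B] [IsDomain B] [Algebra R0 B] [FaithfulSMul R0 B]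

/-- **Theorem C', the vertical prime for a family of reductions** (twin of
`PurityMain26.not_dvd_discr_of_separable`; the special fibre may be reducible). -/
theorem not_dvd_discr_of_separable_family (P : Ideal R0) [P.IsPrime] (π : R0) (hπP : π ∈ P)
    {k₀ : Type*} [Field k₀] {I : Type*} [Fintype I] {L : I → Type*} [∀ i, Field (L i)]
    [∀ i, Algebra k₀ (L i)] (ρ₀ : R0 →+* k₀) (ρ : ∀ i, B →+* L i)
    (hcomp : ∀ i (r : R0), ρ i (algebraMap R0 B r) = algebraMap k₀ (L i) (ρ₀ r))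
    (hker₀ : ∀ r : R0, ρ₀ r = 0 ↔ π ∣ r)
    (hker : ∀ z : B, (∀ i, ρ i z = 0) ↔ algebraMap R0 B π ∣ z)
    (hgen : ∀ c : k₀, ∃ r r' : R0, ρ₀ r' ≠ 0 ∧ c * ρ₀ r' = ρ₀ r)
    (hsep : ∀ i (z : B), IsSeparable k₀ (ρ i z))
    {ι : Type*} [Fintype ι] [DecidableEq ι] (b : Module.Basis ι (RP P) (SP B P))
    (hprime : (Ideal.span {algebraMap R0 (RP P) π}).IsPrime) :
    ¬ algebraMap R0 (RP P) π ∣ Algebra.discr (RP P) b := by
  classical
  have hunit₀ : ∀ m : P.primeCompl, IsUnit (ρ₀ (m : R0)) := by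
    intro m
    refine IsUnit.mk0 _ fun h0 => m.2 ?_
    obtain ⟨c, hc⟩ := (hker₀ _).mp h0
    rw [hc]
    exact P.mul_mem_right c hπP
  have hunit : ∀ i (m : Algebra.algebraMapSubmonoid B P.primeCompl), IsUnit (ρ i (m : B)) := by
    rintro i ⟨_, m0, hm0, rfl⟩
    rw [hcomp]
    exact (hunit₀ ⟨m0, hm0⟩).map _
  set ρ₀' : RP P →+* k₀ := IsLocalization.lift (M := P.primeCompl) (g := ρ₀) hunit₀ with hρ₀'
  set ρ' : ∀ i, SP B P →+* L i := fun i =>
    IsLocalization.lift (M := Algebra.algebraMapSubmonoid B P.primeCompl) (g := ρ i) (hunit i)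
    with hρ'
  have hρ₀'_eq : ∀ r : R0, ρ₀' (algebraMap R0 (RP P) r) = ρ₀ r := fun r =>
    IsLocalization.lift_eq _ r
  have hρ'_eq : ∀ i (z : B), ρ' i (algebraMap B (SP B P) z) = ρ i z := fun i z =>
    IsLocalization.lift_eq _ z
  have hcomp' : ∀ i (r : RP P),
      ρ' i (algebraMap (RP P) (SP B P) r) = algebraMap k₀ (L i) (ρ₀' r) := by
    intro i
    have : (ρ' i).comp (algebraMap (RP P) (SP B P)) = (algebraMap k₀ (L i)).comp ρ₀' := by
      apply IsLocalization.ringHom_ext P.primeCompl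
      ext r
      simp only [RingHom.comp_apply]
      rw [← IsScalarTower.algebraMap_apply R0 (RP P) (SP B P),
        IsScalarTower.algebraMap_apply R0 B (SP B P), hρ'_eq, hρ₀'_eq, hcomp]
    intro r
    exact RingHom.congr_fun this r
  have hπS : algebraMap (RP P) (SP B P) (algebraMap R0 (RP P) π) =
      algebraMap B (SP B P) (algebraMap R0 B π) := by
    rw [← IsScalarTower.algebraMap_apply, ← IsScalarTower.algebraMap_apply]
  have hρπ : ∀ i, ρ i (algebraMap R0 B π) = 0 := (hker _).mpr (dvd_refl _)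
  have hker' : ∀ z : SP B P, (∀ i, ρ' i z = 0) ↔
      z ∈ (Ideal.span {algebraMap R0 (RP P) π}).map (algebraMap (RP P) (SP B P)) := by
    intro z
    rw [Ideal.map_span, Set.image_singleton, Ideal.mem_span_singleton, hπS]
    constructor
    · intro hz
      obtain ⟨e, m, rfl⟩ :=
        IsLocalization.exists_mk'_eq (Algebra.algebraMapSubmonoid B P.primeCompl) z
      have h1 : ∀ i, ρ i e = 0 := by
        intro i
        have h2 : ρ' i (IsLocalization.mk' (SP B P) e m) * ρ' i (algebraMap B (SP B P) m) =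
            ρ' i (algebraMap B (SP B P) e) := by
          rw [← map_mul, IsLocalization.mk'_spec]
        rw [hz i, zero_mul, hρ'_eq] at h2
        exact h2.symm
      obtain ⟨c, hc⟩ := (hker e).mp h1
      refine ⟨IsLocalization.mk' (SP B P) c m, ?_⟩
      rw [hc, ← IsLocalization.mul_mk'_eq_mk'_of_mul]
    · rintro ⟨c, rfl⟩ i
      rw [map_mul, hρ'_eq, hρπ, zero_mul]
  have hker₀' : ∀ r : RP P, ρ₀' r = 0 ↔ r ∈ Ideal.span {algebraMap R0 (RP P) π} := by
    intro r
    obtain ⟨r0, m, rfl⟩ := IsLocalization.exists_mk'_eq P.primeCompl r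
    rw [IsLocalization.lift_mk'_spec, mul_zero, hker₀, Ideal.mem_span_singleton]
    constructor
    · rintro ⟨c, rfl⟩
      refine ⟨IsLocalization.mk' (RP P) c m, ?_⟩
      rw [← IsLocalization.mul_mk'_eq_mk'_of_mul]
    · rintro ⟨c, hc⟩
      -- `π ∣ r0` from `π ∣ r0 / m` in the localisation: use that `ρ₀'` kills `π`
      have h1 : ρ₀' (IsLocalization.mk' (RP P) r0 m) = 0 := by
        rw [hc, map_mul, hρ₀'_eq, (hker₀ π).mpr (dvd_refl π), zero_mul]
      rw [IsLocalization.lift_mk'_spec, mul_zero] at h1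
      exact (hker₀ r0).mp h1
  have hgen' : ∀ c : k₀, ∃ r r' : RP P, ρ₀' r' ≠ 0 ∧ c * ρ₀' r' = ρ₀' r := by
    intro c
    obtain ⟨r, r', hr', e⟩ := hgen c
    exact ⟨algebraMap R0 (RP P) r, algebraMap R0 (RP P) r', by rwa [hρ₀'_eq], by
      rw [hρ₀'_eq, hρ₀'_eq, e]⟩
  have hsep' : ∀ i (z : SP B P), IsSeparable k₀ (ρ' i z) := by
    intro i z
    obtain ⟨e, m, rfl⟩ :=
      IsLocalization.exists_mk'_eq (Algebra.algebraMapSubmonoid B P.primeCompl) z
    obtain ⟨m0, hm0, hm⟩ : ∃ m0 ∈ P.primeCompl, algebraMap R0 B m0 = (m : B) := m.2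
    have h2 : ρ' i (IsLocalization.mk' (SP B P) e m) =
        ρ i e * algebraMap k₀ (L i) ((ρ₀ m0)⁻¹) := by
      have hne : algebraMap k₀ (L i) (ρ₀ m0) ≠ 0 := by
        rw [← hcomp, hm]
        exact (hunit i m).ne_zero
      have h3 : ρ' i (IsLocalization.mk' (SP B P) e m) * algebraMap k₀ (L i) (ρ₀ m0) = ρ i e := by
        rw [← hcomp, hm, ← hρ'_eq i (m : B), ← map_mul, IsLocalization.mk'_spec, hρ'_eq]
      rw [map_inv₀, ← h3, mul_assoc, mul_inv_cancel₀ hne, mul_one]
    rw [h2]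
    exact Field.isSeparable_mul (hsep i e) (isSeparable_algebraMap _)
  haveI := hprime
  have := discr_notMem_of_separable_family b (Ideal.span {algebraMap R0 (RP P) π})
    ρ₀' ρ' hcomp' hker₀' hker' hgen' hsep'
  intro hdvd
  exact this (Ideal.mem_span_singleton.mpr hdvd)

end C

section MainFamily

open Fermat.Agent.RED.PUR.LocalFree26 Fermat.Agent.RED.PUR.PurityMain26

variable {R0 : Type*} [CommRing R0] [IsDomain R0] [IsNoetherianRing R0] [IsIntegrallyClosed R0]
  (B : Type*) [CommRing B] [IsDomain B] [IsIntegrallyClosed B] [Algebra R0 B]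
  [Module.Finite R0 B] [FaithfulSMul R0 B]
  (F : Type*) [Field F] [Algebra B F] [IsFractionRing B F]

/-- **Purity by hand, global form, for a possibly reducible (reduced) special fibre** (twin of
`PurityMain26.smooth_of_purity`): the single reduction `ρ` with kernel `πB` is replaced by a finite
family `ρ i : B → L i` with JOINT kernel `πB`.  Conclusion unchanged: the maximal ideal `x ∋ π` is
locally generated by `π` and one element of `R0`. -/
theorem smooth_of_purity_family (π : R0) (hπ : Prime π)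
    [IsPrincipalIdealRing (R0 ⧸ Ideal.span {π})]
    (x : Ideal B) [hx : x.IsMaximal] (hπx : algebraMap R0 B π ∈ x)
    (hchar : ∀ n : ℕ, n ≠ 0 → ∃ k : ℕ, (n : R0) ∣ π ^ k)
    {k₀ : Type*} [Field k₀] {I : Type*} [Fintype I] {L : I → Type*} [∀ i, Field (L i)]
    [∀ i, Algebra k₀ (L i)] (ρ₀ : R0 →+* k₀) (ρ : ∀ i, B →+* L i)
    (hcomp : ∀ i (r : R0), ρ i (algebraMap R0 B r) = algebraMap k₀ (L i) (ρ₀ r))
    (hker₀ : ∀ r : R0, ρ₀ r = 0 ↔ π ∣ r)
    (hker : ∀ z : B, (∀ i, ρ i z = 0) ↔ algebraMap R0 B π ∣ z)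
    (hgen : ∀ c : k₀, ∃ r r' : R0, ρ₀ r' ≠ 0 ∧ c * ρ₀ r' = ρ₀ r)
    (hsep : ∀ i (z : B), IsSeparable k₀ (ρ i z))
    (hUNR : ∀ O : ValuationSubring F, (∀ s : B, algebraMap B F s ∈ O) →
      IsDiscreteValuationRing O →
      (algebraMap B F (algebraMap R0 B π))⁻¹ ∈ O →
      (∀ r : R0, algebraMap R0 B r ∉ x → (algebraMap B F (algebraMap R0 B r))⁻¹ ∈ O) →
      ∃ g0 : R0, (algebraMap B F (algebraMap R0 B g0))⁻¹ ∉ O ∧
        ∀ y ∈ O, y⁻¹ ∉ O → y / algebraMap B F (algebraMap R0 B g0) ∈ O) :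
    ∃ f : R0, algebraMap R0 B f ∈ x ∧ ∀ y ∈ x, ∃ d, d ∉ x ∧
      d * y ∈ Ideal.span {algebraMap R0 B π, algebraMap R0 B f} := by
  classical
  set P : Ideal R0 := x.comap (algebraMap R0 B) with hP
  have hπP : π ∈ P := hπx
  haveI : Module.Free (RP P) (SP B P) := free_localization B P π hπ hπP
  let b := Module.Free.chooseBasis (RP P) (SP B P)
  refine smooth_of_discr B π hπ x hπx b ?_
  intro g hg
  have hπ'prime : Prime (algebraMap R0 (RP P) π) := prime_pi P π hπ hπP
  by_cases hgπ : algebraMap R0 (RP P) π ∣ g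
  · intro hdvd
    exact not_dvd_discr_of_separable_family B P π hπP ρ₀ ρ hcomp hker₀ hker hgen hsep b
      (span_pi_isPrime P π hπ hπP) (hgπ.trans hdvd)
  · refine not_dvd_discr_of_valuative B F P π hπ hπP hchar 1 ?_ b g hg hgπ ?_
    · intro O h1 h2 h3 _ h4
      exact hUNR O h1 h2 h3 h4
    · rw [map_one]
      exact fun h => hg.not_isUnit (isUnit_of_dvd_one h)

end MainFamily

end Fermat.Agent.DS.G.PUR.DiscrMulti
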